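import Fermat.Agent.LT.T7.H237.QA2
import Fermat.Agent.LT.H670.QOut.Api2

/-!
# Row LT, tower T7, sub-tower QOUT: the HECKE HALF of leaf `QA3` -- helper237

OFF-MAIN.  On `H670/QOut/SpecA.lean` (frozen) + `H670/QOut/Api2.lean` + `T7/H237/QA2.lean`.

`fnHecke237 : IsLevelForm N a b φ → TorusEquiv N ψ₁ ψ₂ φ → FnHecke N ψ₁ ψ₂ a b (famFn φ 1)`:
the classical function `F(z) = y^{-1/2} φ(g_z)` of a torus-equivariant form of level `U(N)`
satisfies, for every prime `p ∤ N`,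
`ψ₁(p)⁻¹ Σ_{j<p} F ∣[1] [[1, N j],[0, p]] + ψ₂(p)⁻¹ F ∣[1] [[p, 0],[0, 1]] = a_p F` and
`b_p ψ₁(p) ψ₂(p) = 1`.

No Iwasawa decomposition and no `Γ(N)`-invariance is used: the coset system at `v = (p)` is
`h_j = [[p, -N j],[0, 1]]_v` (`j < p`), `h_∞ = [[1, 0],[0, p]]_v`; for `h = γ_v` with `γ` rational,
`φ(g_z h) = φ(γ⁻¹ g_z h) = φ((γ⁻¹ g_z)_∞ · u)` with `u = finPart γ⁻¹ · γ_v` integral everywhere and
congruent to `diag(p⁻¹, 1)` resp. `diag(1, p⁻¹)` mod `N`; `γ⁻¹ g_z` is `g_{z'}` times a positive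
scalar since `γ` is upper triangular.

* Part G: valuations of rational numbers at the places of `ℚ`.
* Part H: `ratAt237`, `awayEl237` and their components; `diagMod_of_comps237`.
* Part I: the coset system `hSys237` and `isHeckeCosetSystem_hSys237`.
* Part J: the congruences `DiagMod` of the elements `awayEl237`.
* Part K: `transfer237` and the identities in `GL₂(ℝ)`.
* Part L: `hecke_sum237`, `hecke_scalar237`, `fnHecke237`.
-/

set_option autoImplicit false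

open IsDedekindDomain NumberField AutomorphicForm
open scoped MatrixGroups

noncomputable section

namespace Fermat.Agent.LT.T7.H237

open Fermat.Agent.LT.H556 Fermat.Agent.LT.H670.QOut

/-! ## Part G: valuations of rational numbers -/

theorem valuation_intCast_le_one237 (v : HeightOneSpectrum (𝓞 ℚ)) (m : ℤ) :
    v.valuation ℚ ((m : ℤ) : ℚ) ≤ 1 := by
  have h : ((m : ℤ) : ℚ) = algebraMap (𝓞 ℚ) ℚ ((m : ℤ) : 𝓞 ℚ) := by rw [map_intCast]
  rw [h]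
  exact HeightOneSpectrum.valuation_le_one v _

theorem valuation_natCast237 (v : HeightOneSpectrum (𝓞 ℚ)) (n : ℕ) :
    v.valuation ℚ ((n : ℕ) : ℚ) = Valued.v ((n : ℕ) : v.adicCompletion ℚ) := by
  rw [← valued_algebraMap237, map_natCast]

theorem valuation_intCast237 (v : HeightOneSpectrum (𝓞 ℚ)) (n : ℤ) :
    v.valuation ℚ ((n : ℤ) : ℚ) = Valued.v ((n : ℤ) : v.adicCompletion ℚ) := by
  rw [← valued_algebraMap237, map_intCast]

/-- a prime is a unit at every place different from its own -/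
theorem valuation_prime_of_ne237 (p : Nat.Primes) (v : HeightOneSpectrum (𝓞 ℚ))
    (hv : v ≠ ratPrime p) : v.valuation ℚ (((p : ℕ) : ℕ) : ℚ) = 1 := by
  rw [valuation_natCast237, valued_natCast_eq_one_iff237]
  obtain ⟨q, rfl⟩ := exists_eq_ratPrime v
  rw [natCast_mem_ratPrime_iff]
  intro hdvd
  apply hv
  have : (q : ℕ) = (p : ℕ) := (Nat.prime_dvd_prime_iff_eq q.2 p.2).1 hdvd
  rw [Subtype.ext this]

/-- a prime is a uniformiser at its own place -/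
theorem valuation_prime_self237 (p : Nat.Primes) :
    (ratPrime p).valuation ℚ (((p : ℕ) : ℕ) : ℚ) = WithZero.exp (-1 : ℤ) := by
  have h : (((p : ℕ) : ℕ) : ℚ) = algebraMap (𝓞 ℚ) ℚ (((p : ℕ) : ℕ) : 𝓞 ℚ) := by rw [map_natCast]
  rw [h, HeightOneSpectrum.valuation_of_algebraMap]
  exact HeightOneSpectrum.intValuation_singleton _
    (Nat.cast_ne_zero.2 p.2.ne_zero) (ratPrime_asIdeal p)

/-- an integer prime to `p` is a unit at `p` -/
theorem valuation_natCast_eq_one_of_not_dvd237 (p : Nat.Primes) {n : ℕ} (hn : ¬ (p : ℕ) ∣ n) :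
    (ratPrime p).valuation ℚ ((n : ℕ) : ℚ) = 1 := by
  rw [valuation_natCast237, valued_natCast_eq_one_iff237, natCast_mem_ratPrime_iff]
  exact hn

theorem valuation_intCast_eq_one_of_not_dvd237 (p : Nat.Primes) {n : ℤ}
    (hn : ¬ ((p : ℕ) : ℤ) ∣ n) : (ratPrime p).valuation ℚ ((n : ℤ) : ℚ) = 1 := by
  have h1 : (ratPrime p).valuation ℚ ((n.natAbs : ℕ) : ℚ) = 1 :=
    valuation_natCast_eq_one_of_not_dvd237 p (fun h => hn (Int.natCast_dvd.2 h))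
  rcases Int.natAbs_eq n with h | h
  · rw [h, Int.cast_natCast]; exact h1
  · rw [h, Int.cast_neg, Int.cast_natCast, Valuation.map_neg]; exact h1

/-- `m / p` is divisible by `N` at `v` when `N ∣ m` and `p` is a unit at `v` -/
theorem valuation_div_le237 (N : ℕ) (v : HeightOneSpectrum (𝓞 ℚ)) {m : ℤ} {c : ℚ}
    (hc : v.valuation ℚ c = 1) (hm : (N : ℤ) ∣ m) :
    v.valuation ℚ (((m : ℤ) : ℚ) * c⁻¹) ≤ v.valuation ℚ ((N : ℕ) : ℚ) := by
  obtain ⟨k, rfl⟩ := hm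
  rw [map_mul, map_inv₀, hc, inv_one, mul_one, Int.cast_mul, map_mul, Int.cast_natCast]
  calc v.valuation ℚ ((N : ℕ) : ℚ) * v.valuation ℚ ((k : ℤ) : ℚ)
      ≤ v.valuation ℚ ((N : ℕ) : ℚ) * 1 := mul_le_mul' le_rfl (valuation_intCast_le_one237 v k)
    _ = _ := mul_one _

/-! ## Part H: rational matrices at the finite places -/

/-- `GL₂(ℚ) → GL₂(ℚ_v)` -/
def ratAt237 (v : HeightOneSpectrum (𝓞 ℚ)) : GL (Fin 2) ℚ →* GL (Fin 2) (v.adicCompletion ℚ) :=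
  Matrix.GeneralLinearGroup.map (algebraMap ℚ (v.adicCompletion ℚ))

theorem coe_ratAt237 (v : HeightOneSpectrum (𝓞 ℚ)) (γ : GL (Fin 2) ℚ) :
    ((ratAt237 v γ : GL (Fin 2) (v.adicCompletion ℚ)) :
        Matrix (Fin 2) (Fin 2) (v.adicCompletion ℚ))
      = (γ : Matrix (Fin 2) (Fin 2) ℚ).map (algebraMap ℚ (v.adicCompletion ℚ)) := rfl

/-- the element with components `γ⁻¹` at the finite places `≠ v`, trivial at `v` and at the
real place -/
def awayEl237 (v : HeightOneSpectrum (𝓞 ℚ)) (γ : GL (Fin 2) ℚ) : A0.G ℚ :=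
  finPart γ⁻¹ * locFin v (ratAt237 v γ)

theorem trivAtInf_awayEl237 (v : HeightOneSpectrum (𝓞 ℚ)) (γ : GL (Fin 2) ℚ) :
    ∀ w, A0.TrivAtInf w (awayEl237 v γ) :=
  trivAtInf_mul237 (trivAtInf_finPart γ⁻¹) (fun w => trivAtInf_locFin v _ w)

theorem awayEl_inv237 (v : HeightOneSpectrum (𝓞 ℚ)) (γ : GL (Fin 2) ℚ) :
    (awayEl237 v γ)⁻¹ = locFin v (ratAt237 v γ⁻¹) * finPart γ := by
  rw [awayEl237, mul_inv_rev, finPart_inv, inv_inv, map_inv, map_inv]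

theorem finComp_awayEl_same237 (v : HeightOneSpectrum (𝓞 ℚ)) (γ : GL (Fin 2) ℚ) :
    A0.finComp v (awayEl237 v γ) = 1 := by
  rw [awayEl237, finComp_mul237, finComp_finPart, finComp_locFin_same, coe_ratAt237,
    ← Matrix.map_mul, ← Units.val_mul, inv_mul_cancel, Units.val_one,
    Matrix.map_one _ (map_zero _) (map_one _)]

theorem finComp_awayEl_ne237 (v v' : HeightOneSpectrum (𝓞 ℚ)) (h : v' ≠ v)
    (γ : GL (Fin 2) ℚ) :
    A0.finComp v' (awayEl237 v γ)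
      = ((γ⁻¹ : GL (Fin 2) ℚ) : Matrix (Fin 2) (Fin 2) ℚ).map
          (algebraMap ℚ (v'.adicCompletion ℚ)) := by
  rw [awayEl237, finComp_mul237, finComp_finPart, finComp_locFin_ne v v' h, mul_one]

theorem finComp_awayEl_inv_same237 (v : HeightOneSpectrum (𝓞 ℚ)) (γ : GL (Fin 2) ℚ) :
    A0.finComp v (awayEl237 v γ)⁻¹ = 1 := by
  rw [awayEl_inv237, finComp_mul237, finComp_finPart, finComp_locFin_same, coe_ratAt237,
    ← Matrix.map_mul, ← Units.val_mul, inv_mul_cancel, Units.val_one,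
    Matrix.map_one _ (map_zero _) (map_one _)]

theorem finComp_awayEl_inv_ne237 (v v' : HeightOneSpectrum (𝓞 ℚ)) (h : v' ≠ v)
    (γ : GL (Fin 2) ℚ) :
    A0.finComp v' (awayEl237 v γ)⁻¹
      = (γ : Matrix (Fin 2) (Fin 2) ℚ).map (algebraMap ℚ (v'.adicCompletion ℚ)) := by
  rw [awayEl_inv237, finComp_mul237, finComp_finPart, finComp_locFin_ne v v' h, one_mul]

theorem dg_eq_map237 (v : HeightOneSpectrum (𝓞 ℚ)) (a d : ℤ) :
    dg237 v a d = (Matrix.diagonal ![((a : ℤ) : ℚ), ((d : ℤ) : ℚ)]).map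
      (algebraMap ℚ (v.adicCompletion ℚ)) := by
  refine Matrix.ext fun i j => ?_
  fin_cases i <;> fin_cases j <;> simp [dg237]

/-- `DiagMod` from the components -/
theorem diagMod_of_comps237 {N : ℕ} [NeZero N] {v : HeightOneSpectrum (𝓞 ℚ)}
    (hv : ((N : ℕ) : 𝓞 ℚ) ∉ v.asIdeal) {u : A0.G ℚ} (M : Matrix (Fin 2) (Fin 2) ℚ) (a d : ℤ)
    (hinf : ∀ w, A0.TrivAtInf w u) (hsame : A0.finComp v u = 1)
    (hne : ∀ v', v' ≠ v → A0.finComp v' u = M.map (algebraMap ℚ (v'.adicCompletion ℚ)))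
    (h : ∀ v', v' ≠ v → ∀ i j,
      v'.valuation ℚ (M i j - Matrix.diagonal ![((a : ℤ) : ℚ), ((d : ℤ) : ℚ)] i j)
        ≤ v'.valuation ℚ ((N : ℕ) : ℚ)) :
    DiagMod N a d u := by
  rw [diagMod_iff237]
  refine ⟨hinf, fun v' => ?_⟩
  by_cases hv' : v' = v
  · subst hv'
    intro i j
    rw [hsame, valued_N_eq_one237 N v' hv, ← dg_one237 v']
    have h1 : MatInt237 v' (dg237 v' 1 1 - dg237 v' a d) := by
      intro i j
      exact Valuation.map_sub_le _ (matInt_dg237 v' 1 1 i j) (matInt_dg237 v' a d i j)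
    exact h1 i j
  · intro i j
    rw [hne v' hv', dg_eq_map237, ← Matrix.map_sub (f := algebraMap ℚ (v'.adicCompletion ℚ))
      (fun _ _ => map_sub _ _ _), Matrix.map_apply, valued_algebraMap237,
      ← valuation_natCast237]
    exact h v' hv' i j

/-! ## Part I: the Hecke coset system at `p ∤ N` -/

/-- upper triangular rational matrix, with its explicit inverse -/
def utQ237 (a b d : ℚ) (ha : a ≠ 0) (hd : d ≠ 0) : GL (Fin 2) ℚ :=
  ⟨!![a, b; 0, d], !![a⁻¹, -(b * a⁻¹ * d⁻¹); 0, d⁻¹], by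
      ext i j
      fin_cases i <;> fin_cases j <;> simp [Matrix.mul_apply, Fin.sum_univ_two] <;> field_simp
      ring, by
      ext i j
      fin_cases i <;> fin_cases j <;> simp [Matrix.mul_apply, Fin.sum_univ_two] <;> field_simp
      ring⟩

theorem coe_utQ237 (a b d : ℚ) (ha : a ≠ 0) (hd : d ≠ 0) :
    ((utQ237 a b d ha hd : GL (Fin 2) ℚ) : Matrix (Fin 2) (Fin 2) ℚ) = !![a, b; 0, d] := rfl

theorem coe_utQ_inv237 (a b d : ℚ) (ha : a ≠ 0) (hd : d ≠ 0) :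
    (((utQ237 a b d ha hd)⁻¹ : GL (Fin 2) ℚ) : Matrix (Fin 2) (Fin 2) ℚ)
      = !![a⁻¹, -(b * a⁻¹ * d⁻¹); 0, d⁻¹] := rfl

theorem primeQ_ne_zero237 (p : Nat.Primes) : (((p : ℕ) : ℕ) : ℚ) ≠ 0 :=
  Nat.cast_ne_zero.2 p.2.ne_zero

/-- `[[p, -N j], [0, 1]]` -/
def gamJ237 (N : ℕ) (p : Nat.Primes) (j : ℕ) : GL (Fin 2) ℚ :=
  utQ237 (((p : ℕ) : ℕ) : ℚ) (-(((N : ℕ) : ℚ) * ((j : ℕ) : ℚ))) 1 (primeQ_ne_zero237 p) one_ne_zero

/-- `[[1, 0], [0, p]]` -/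
def gamI237 (p : Nat.Primes) : GL (Fin 2) ℚ :=
  utQ237 1 0 (((p : ℕ) : ℕ) : ℚ) one_ne_zero (primeQ_ne_zero237 p)

/-- `[[p, 0], [0, p]]` -/
def gamS237 (p : Nat.Primes) : GL (Fin 2) ℚ :=
  utQ237 (((p : ℕ) : ℕ) : ℚ) 0 (((p : ℕ) : ℕ) : ℚ) (primeQ_ne_zero237 p) (primeQ_ne_zero237 p)

/-- the rational matrices of the coset system -/
def hk237 (N : ℕ) (p : Nat.Primes) : Option (Fin (p : ℕ)) → GL (Fin 2) ℚ
  | none => gamI237 p
  | some j => gamJ237 N p (j : ℕ)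

theorem coe_hk_none237 (N : ℕ) (p : Nat.Primes) :
    ((hk237 N p none : GL (Fin 2) ℚ) : Matrix (Fin 2) (Fin 2) ℚ)
      = !![1, 0; 0, (((p : ℕ) : ℕ) : ℚ)] := rfl

theorem coe_hk_some237 (N : ℕ) (p : Nat.Primes) (j : Fin (p : ℕ)) :
    ((hk237 N p (some j) : GL (Fin 2) ℚ) : Matrix (Fin 2) (Fin 2) ℚ)
      = !![(((p : ℕ) : ℕ) : ℚ), -(((N : ℕ) : ℚ) * (((j : ℕ) : ℕ) : ℚ)); 0, 1] := rfl

theorem coe_hk_inv_none237 (N : ℕ) (p : Nat.Primes) :
    (((hk237 N p none)⁻¹ : GL (Fin 2) ℚ) : Matrix (Fin 2) (Fin 2) ℚ)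
      = !![(1 : ℚ)⁻¹, -(0 * (1 : ℚ)⁻¹ * ((((p : ℕ) : ℕ) : ℚ))⁻¹); 0,
          ((((p : ℕ) : ℕ) : ℚ))⁻¹] := rfl

theorem coe_hk_inv_some237 (N : ℕ) (p : Nat.Primes) (j : Fin (p : ℕ)) :
    (((hk237 N p (some j))⁻¹ : GL (Fin 2) ℚ) : Matrix (Fin 2) (Fin 2) ℚ)
      = !![((((p : ℕ) : ℕ) : ℚ))⁻¹,
          -(-(((N : ℕ) : ℚ) * (((j : ℕ) : ℕ) : ℚ)) * ((((p : ℕ) : ℕ) : ℚ))⁻¹ * (1 : ℚ)⁻¹);
          0, (1 : ℚ)⁻¹] := rfl

/-- the coset representatives -/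
def hel237 (N : ℕ) (p : Nat.Primes) (x : Option (Fin (p : ℕ))) : A0.G ℚ :=
  locFin (ratPrime p) (ratAt237 (ratPrime p) (hk237 N p x))

theorem finComp_hel237 (N : ℕ) (p : Nat.Primes) (x : Option (Fin (p : ℕ))) :
    A0.finComp (ratPrime p) (hel237 N p x)
      = (hk237 N p x : Matrix (Fin 2) (Fin 2) ℚ).map
          (algebraMap ℚ ((ratPrime p).adicCompletion ℚ)) := by
  rw [hel237, finComp_locFin_same, coe_ratAt237]

theorem finComp_hel_inv_mul237 (N : ℕ) (p : Nat.Primes) (x y : Option (Fin (p : ℕ))) :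
    A0.finComp (ratPrime p) ((hel237 N p x)⁻¹ * hel237 N p y)
      = (((hk237 N p x)⁻¹ * hk237 N p y : GL (Fin 2) ℚ) : Matrix (Fin 2) (Fin 2) ℚ).map
          (algebraMap ℚ ((ratPrime p).adicCompletion ℚ)) := by
  rw [hel237, hel237, ← map_inv, ← map_mul, ← map_inv, ← map_mul, finComp_locFin_same,
    coe_ratAt237]

theorem valuation_prime_inv237 (p : Nat.Primes) :
    (1 : WithZero (Multiplicative ℤ)) < (ratPrime p).valuation ℚ ((((p : ℕ) : ℕ) : ℚ)⁻¹) := by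
  rw [map_inv₀, valuation_prime_self237, ← WithZero.exp_neg, neg_neg, ← WithZero.exp_zero,
    WithZero.exp_lt_exp]
  exact zero_lt_one

theorem isIntegralAt_iff237 (v : HeightOneSpectrum (𝓞 ℚ)) (g : A0.G ℚ) :
    A0.IsIntegralAt v g ↔ ∀ i j, Valued.v (A0.finComp v g i j) ≤ 1 := Iff.rfl

theorem not_isIntegralAt_hel237 {N : ℕ} (p : Nat.Primes) (hp : ¬ (p : ℕ) ∣ N)
    (x y : Option (Fin (p : ℕ))) (hxy : x ≠ y) :
    ¬ A0.IsIntegralAt (ratPrime p) ((hel237 N p x)⁻¹ * hel237 N p y) := by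
  rw [isIntegralAt_iff237, finComp_hel_inv_mul237]
  intro hint
  have hp0 := primeQ_ne_zero237 p
  rcases x with _ | j <;> rcases y with _ | j'
  · exact hxy rfl
  · -- `γ_∞⁻¹ γ_j`, entry `(1,1) = p⁻¹`
    have h := hint 1 1
    rw [Matrix.map_apply, valued_algebraMap237, Units.val_mul] at h
    have e : ((((hk237 N p none)⁻¹ : GL (Fin 2) ℚ) : Matrix (Fin 2) (Fin 2) ℚ) *
        ((hk237 N p (some j') : GL (Fin 2) ℚ) : Matrix (Fin 2) (Fin 2) ℚ)) 1 1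
        = (((p : ℕ) : ℕ) : ℚ)⁻¹ := by
      rw [coe_hk_inv_none237, coe_hk_some237]
      simp [Matrix.mul_apply, Fin.sum_univ_two]
    rw [e] at h
    exact absurd h (not_le.2 (valuation_prime_inv237 p))
  · -- `γ_j⁻¹ γ_∞`, entry `(0,0) = p⁻¹`
    have h := hint 0 0
    rw [Matrix.map_apply, valued_algebraMap237, Units.val_mul] at h
    have e : ((((hk237 N p (some j))⁻¹ : GL (Fin 2) ℚ) : Matrix (Fin 2) (Fin 2) ℚ) *
        ((hk237 N p none : GL (Fin 2) ℚ) : Matrix (Fin 2) (Fin 2) ℚ)) 0 0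
        = (((p : ℕ) : ℕ) : ℚ)⁻¹ := by
      rw [coe_hk_inv_some237, coe_hk_none237]
      simp [Matrix.mul_apply, Fin.sum_univ_two]
    rw [e] at h
    exact absurd h (not_le.2 (valuation_prime_inv237 p))
  · -- `γ_j⁻¹ γ_j'`, entry `(0,1) = N (j - j') / p`
    have hjj : (j : ℕ) ≠ (j' : ℕ) := fun h => hxy (by rw [Fin.ext h])
    have h := hint 0 1
    rw [Matrix.map_apply, valued_algebraMap237, Units.val_mul] at h
    have e : ((((hk237 N p (some j))⁻¹ : GL (Fin 2) ℚ) : Matrix (Fin 2) (Fin 2) ℚ) *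
        ((hk237 N p (some j') : GL (Fin 2) ℚ) : Matrix (Fin 2) (Fin 2) ℚ)) 0 1
        = ((N : ℕ) : ℚ) * (((((j : ℕ) : ℤ) - ((j' : ℕ) : ℤ) : ℤ)) : ℚ) *
          (((p : ℕ) : ℕ) : ℚ)⁻¹ := by
      rw [coe_hk_inv_some237, coe_hk_some237]
      simp [Matrix.mul_apply, Fin.sum_univ_two]
      field_simp
      ring
    rw [e, map_mul, map_mul, valuation_natCast_eq_one_of_not_dvd237 p hp, one_mul,
      valuation_intCast_eq_one_of_not_dvd237 p, one_mul] at h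
    · exact absurd h (not_le.2 (valuation_prime_inv237 p))
    · intro hdvd
      have h0 : (((j : ℕ) : ℤ) - ((j' : ℕ) : ℤ)) = 0 := by
        apply Int.eq_zero_of_abs_lt_dvd hdvd
        have h1 : ((j : ℕ) : ℤ) < ((p : ℕ) : ℤ) := by exact_mod_cast j.2
        have h2 : ((j' : ℕ) : ℤ) < ((p : ℕ) : ℤ) := by exact_mod_cast j'.2
        have h3 : (0 : ℤ) ≤ ((j : ℕ) : ℤ) := Int.natCast_nonneg _
        have h4 : (0 : ℤ) ≤ ((j' : ℕ) : ℤ) := Int.natCast_nonneg _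
        rw [abs_lt]
        constructor <;> linarith
      apply hjj
      have : ((j : ℕ) : ℤ) = ((j' : ℕ) : ℤ) := by linarith
      exact_mod_cast this

theorem isIntegralAt_one237 (v : HeightOneSpectrum (𝓞 ℚ)) : A0.IsIntegralAt v (1 : A0.G ℚ) := by
  rw [isIntegralAt_iff237, finComp_one237]
  intro i j
  by_cases hij : i = j
  · rw [hij, Matrix.one_apply_eq, map_one]
  · rw [Matrix.one_apply_ne hij, map_zero]; exact zero_le

theorem hel_injective237 {N : ℕ} (p : Nat.Primes) (hp : ¬ (p : ℕ) ∣ N) :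
    Function.Injective (hel237 N p) := by
  intro x y hxy
  by_contra hne
  apply not_isIntegralAt_hel237 p hp x y hne
  rw [hxy, inv_mul_cancel]
  exact isIntegralAt_one237 _

/-- the coset system -/
def hSys237 (N : ℕ) (p : Nat.Primes) : Finset (A0.G ℚ) :=
  open Classical in Finset.univ.image (hel237 N p)

theorem isHeckeCosetSystem_hSys237 {N : ℕ} (p : Nat.Primes) (hp : ¬ (p : ℕ) ∣ N) :
    A0.IsHeckeCosetSystem (ratPrime p) (hSys237 N p) := by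
  classical
  refine ⟨?_, ?_, ?_⟩
  · rw [hSys237, Finset.card_image_of_injective _ (hel_injective237 p hp), Finset.card_univ,
      Fintype.card_option, Fintype.card_fin, absNorm_ratPrime]
  · intro h hh
    rw [hSys237, Finset.mem_image] at hh
    obtain ⟨x, -, rfl⟩ := hh
    refine ⟨isLocalAtFin_locFin _ _, ?_, ?_⟩
    · rw [isIntegralAt_iff237, finComp_hel237]
      intro i j
      rw [Matrix.map_apply, valued_algebraMap237]
      have hP : (ratPrime p).valuation ℚ (((p : ℕ) : ℕ) : ℚ) ≤ 1 := by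
        have := valuation_intCast_le_one237 (ratPrime p) (((p : ℕ) : ℕ) : ℤ)
        rwa [Int.cast_natCast] at this
      rcases x with _ | k
      · rw [coe_hk_none237]
        fin_cases i <;> fin_cases j <;> simp [hP]
      · rw [coe_hk_some237]
        have hNk : (ratPrime p).valuation ℚ (((N : ℕ) : ℚ) * (((k : ℕ) : ℕ) : ℚ)) ≤ 1 := by
          have := valuation_intCast_le_one237 (ratPrime p) (((N : ℕ) : ℤ) * ((k : ℕ) : ℤ))
          rw [Int.cast_mul, Int.cast_natCast, Int.cast_natCast] at this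
          exact this
        fin_cases i <;> fin_cases j
        · simpa using hP
        · simpa [Valuation.map_neg] using hNk
        · simp
        · simp
    · have hdet : ((hk237 N p x : Matrix (Fin 2) (Fin 2) ℚ).map
          (algebraMap ℚ ((ratPrime p).adicCompletion ℚ))).det
          = algebraMap ℚ ((ratPrime p).adicCompletion ℚ)
            ((hk237 N p x : Matrix (Fin 2) (Fin 2) ℚ).det) :=
        (RingHom.map_det (algebraMap ℚ ((ratPrime p).adicCompletion ℚ)) _).symm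
      rw [finComp_hel237, hdet, valued_algebraMap237]
      rcases x with _ | k
      · rw [coe_hk_none237, Matrix.det_fin_two_of, one_mul, zero_mul, sub_zero]
        exact valuation_prime_self237 p
      · rw [coe_hk_some237, Matrix.det_fin_two_of, mul_one, mul_zero, sub_zero]
        exact valuation_prime_self237 p
  · intro h hh h' hh' hne
    rw [hSys237, Finset.mem_image] at hh hh'
    obtain ⟨x, -, rfl⟩ := hh
    obtain ⟨y, -, rfl⟩ := hh'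
    exact not_isIntegralAt_hel237 p hp x y (fun hxy => hne (by rw [hxy]))

/-! ## Part J: congruences of the elements `awayEl` -/

theorem valuation_dvd_le237 (N : ℕ) (v : HeightOneSpectrum (𝓞 ℚ)) {m : ℤ} (hm : (N : ℤ) ∣ m) :
    v.valuation ℚ ((m : ℤ) : ℚ) ≤ v.valuation ℚ ((N : ℕ) : ℚ) := by
  have := valuation_div_le237 N v (c := 1) (map_one _) hm
  rwa [inv_one, mul_one] at this

theorem valuation_zero_le237 (N : ℕ) (v : HeightOneSpectrum (𝓞 ℚ)) :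
    v.valuation ℚ (0 : ℚ) ≤ v.valuation ℚ ((N : ℕ) : ℚ) := by
  rw [map_zero]; exact zero_le

theorem diagMod_awayEl_utQ237 {N : ℕ} [NeZero N] {v : HeightOneSpectrum (𝓞 ℚ)}
    (hv : ((N : ℕ) : 𝓞 ℚ) ∉ v.asIdeal) (a b d : ℚ) (ha : a ≠ 0) (hd : d ≠ 0) (a' d' : ℤ)
    (h00 : ∀ v', v' ≠ v → v'.valuation ℚ (a⁻¹ - ((a' : ℤ) : ℚ)) ≤ v'.valuation ℚ ((N : ℕ) : ℚ))
    (h01 : ∀ v', v' ≠ v → v'.valuation ℚ (b * a⁻¹ * d⁻¹) ≤ v'.valuation ℚ ((N : ℕ) : ℚ))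
    (h11 : ∀ v', v' ≠ v → v'.valuation ℚ (d⁻¹ - ((d' : ℤ) : ℚ)) ≤ v'.valuation ℚ ((N : ℕ) : ℚ)) :
    DiagMod N a' d' (awayEl237 v (utQ237 a b d ha hd)) := by
  refine diagMod_of_comps237 hv _ a' d' (trivAtInf_awayEl237 v _) (finComp_awayEl_same237 v _)
    (fun v' hv' => finComp_awayEl_ne237 v v' hv' _) (fun v' hv' i j => ?_)
  rw [coe_utQ_inv237]
  fin_cases i <;> fin_cases j
  · simpa using h00 v' hv'
  · simpa [Valuation.map_neg] using h01 v' hv'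
  · simp
  · simpa using h11 v' hv'

theorem diagMod_awayEl_inv_utQ237 {N : ℕ} [NeZero N] {v : HeightOneSpectrum (𝓞 ℚ)}
    (hv : ((N : ℕ) : 𝓞 ℚ) ∉ v.asIdeal) (a b d : ℚ) (ha : a ≠ 0) (hd : d ≠ 0) (a₀ d₀ : ℤ)
    (h00 : ∀ v', v' ≠ v → v'.valuation ℚ (a - ((a₀ : ℤ) : ℚ)) ≤ v'.valuation ℚ ((N : ℕ) : ℚ))
    (h01 : ∀ v', v' ≠ v → v'.valuation ℚ b ≤ v'.valuation ℚ ((N : ℕ) : ℚ))
    (h11 : ∀ v', v' ≠ v → v'.valuation ℚ (d - ((d₀ : ℤ) : ℚ)) ≤ v'.valuation ℚ ((N : ℕ) : ℚ)) :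
    DiagMod N a₀ d₀ (awayEl237 v (utQ237 a b d ha hd))⁻¹ := by
  refine diagMod_of_comps237 hv _ a₀ d₀ (trivAtInf_inv237 (trivAtInf_awayEl237 v _))
    (finComp_awayEl_inv_same237 v _)
    (fun v' hv' => finComp_awayEl_inv_ne237 v v' hv' _) (fun v' hv' i j => ?_)
  rw [coe_utQ237]
  fin_cases i <;> fin_cases j
  · simpa using h00 v' hv'
  · simpa using h01 v' hv'
  · simp
  · simpa using h11 v' hv'

section Cong

variable {N : ℕ} [NeZero N] (p : Nat.Primes) (hp : ¬ (p : ℕ) ∣ N) {p' : ℤ}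
  (hpp : (N : ℤ) ∣ (((p : ℕ) : ℕ) : ℤ) * p' - 1)

omit [NeZero N] in
include hp in
theorem notMem_ratPrime237 : ((N : ℕ) : 𝓞 ℚ) ∉ (ratPrime p).asIdeal := fun h =>
  hp ((natCast_mem_ratPrime_iff p N).1 h)

omit [NeZero N] in
include hpp in
/-- `p⁻¹ ≡ p'` mod `N` away from `p` -/
theorem valuation_inv_sub237 (v' : HeightOneSpectrum (𝓞 ℚ)) (hv' : v' ≠ ratPrime p) :
    v'.valuation ℚ (((((p : ℕ) : ℕ) : ℚ))⁻¹ - ((p' : ℤ) : ℚ))
      ≤ v'.valuation ℚ ((N : ℕ) : ℚ) := by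
  have hp0 := primeQ_ne_zero237 p
  have e : ((((p : ℕ) : ℕ) : ℚ))⁻¹ - ((p' : ℤ) : ℚ)
      = -((((((p : ℕ) : ℕ) : ℤ) * p' - 1 : ℤ) : ℚ) * ((((p : ℕ) : ℕ) : ℚ))⁻¹) := by
    push_cast
    field_simp
    ring
  rw [e, Valuation.map_neg]
  exact valuation_div_le237 N v' (valuation_prime_of_ne237 p v' hv') hpp

include hp hpp in
theorem diagMod_gamJ237 (j : ℕ) :
    DiagMod N p' 1 (awayEl237 (ratPrime p) (gamJ237 N p j)) := by
  refine diagMod_awayEl_utQ237 (notMem_ratPrime237 p hp) _ _ _ _ _ p' 1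
    (fun v' hv' => valuation_inv_sub237 p hpp v' hv') (fun v' hv' => ?_) (fun v' hv' => ?_)
  · have h := valuation_div_le237 N v' (m := -(((N : ℕ) : ℤ) * ((j : ℕ) : ℤ)))
      (valuation_prime_of_ne237 p v' hv') (Dvd.intro _ rfl |>.neg_right)
    simpa using h
  · simp

include hp in
theorem diagMod_gamJ_inv237 (j : ℕ) :
    DiagMod N (((p : ℕ) : ℕ) : ℤ) 1 (awayEl237 (ratPrime p) (gamJ237 N p j))⁻¹ := by
  refine diagMod_awayEl_inv_utQ237 (notMem_ratPrime237 p hp) _ _ _ _ _ _ 1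
    (fun v' hv' => ?_) (fun v' hv' => ?_) (fun v' hv' => ?_)
  · simp
  · have h := valuation_dvd_le237 N v' (m := -(((N : ℕ) : ℤ) * ((j : ℕ) : ℤ)))
      (Dvd.intro _ rfl |>.neg_right)
    simpa using h
  · simp

include hp hpp in
theorem diagMod_gamI237 :
    DiagMod N 1 p' (awayEl237 (ratPrime p) (gamI237 p)) := by
  refine diagMod_awayEl_utQ237 (notMem_ratPrime237 p hp) _ _ _ _ _ 1 p'
    (fun v' hv' => ?_) (fun v' hv' => ?_) (fun v' hv' => valuation_inv_sub237 p hpp v' hv')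
  · simp
  · simp

include hp in
theorem diagMod_gamI_inv237 :
    DiagMod N 1 (((p : ℕ) : ℕ) : ℤ) (awayEl237 (ratPrime p) (gamI237 p))⁻¹ := by
  refine diagMod_awayEl_inv_utQ237 (notMem_ratPrime237 p hp) _ _ _ _ _ 1 _
    (fun v' hv' => ?_) (fun v' hv' => ?_) (fun v' hv' => ?_)
  · simp
  · simp
  · simp

include hp hpp in
theorem diagMod_gamS237 :
    DiagMod N p' p' (awayEl237 (ratPrime p) (gamS237 p)) := by
  refine diagMod_awayEl_utQ237 (notMem_ratPrime237 p hp) _ _ _ _ _ p' p'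
    (fun v' hv' => valuation_inv_sub237 p hpp v' hv') (fun v' hv' => ?_)
    (fun v' hv' => valuation_inv_sub237 p hpp v' hv')
  · simp

include hp in
theorem diagMod_gamS_inv237 :
    DiagMod N (((p : ℕ) : ℕ) : ℤ) (((p : ℕ) : ℕ) : ℤ)
      (awayEl237 (ratPrime p) (gamS237 p))⁻¹ := by
  refine diagMod_awayEl_inv_utQ237 (notMem_ratPrime237 p hp) _ _ _ _ _ _ _
    (fun v' hv' => ?_) (fun v' hv' => ?_) (fun v' hv' => ?_)
  · simp
  · simp
  · simp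

end Cong

/-! ## Part K: transfer to the real place -/

section Transfer

open UpperHalfPlane ModularForm
open scoped Manifold ModularForm

variable {N : ℕ} [NeZero N] {a b : Nat.Primes → ℂ} {φ : A0.G ℚ → ℂ}
  {ψ₁ ψ₂ : DirichletCharacter ℂ N}

omit [NeZero N] in
/-- `φ(m_∞ · γ_v) = ψ₁(a₀) ψ₂(d₀) φ((γ⁻¹ m)_∞)` when `finPart γ⁻¹ · γ_v ≡ diag(a₀, d₀)` mod `N` -/
theorem transfer237 (h : IsLevelForm N a b φ) (hT : TorusEquiv N ψ₁ ψ₂ φ)
    (v : HeightOneSpectrum (𝓞 ℚ)) (γ : GL (Fin 2) ℚ) (a₀ d₀ a' d' : ℤ)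
    (ha : (N : ℤ) ∣ a₀ * a' - 1) (hd : (N : ℤ) ∣ d₀ * d' - 1)
    (h1 : DiagMod N a₀ d₀ (awayEl237 v γ)) (h2 : DiagMod N a' d' (awayEl237 v γ)⁻¹)
    (m : GL (Fin 2) ℝ) :
    φ (locInf m * locFin v (ratAt237 v γ))
      = ψ₁ ((a₀ : ℤ) : ZMod N) * ψ₂ ((d₀ : ℤ) : ZMod N) * φ (locInf (toReal γ⁻¹ * m)) := by
  rw [← hT a₀ d₀ a' d' _ ha hd h1 h2, ← h.left_inv γ⁻¹ (locInf m * locFin v (ratAt237 v γ))]
  congr 1
  rw [diagQ_eq, awayEl237, map_mul]
  have hc : finPart γ⁻¹ * locInf m = locInf m * finPart γ⁻¹ :=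
    (comm_locInf237 m (trivAtInf_finPart γ⁻¹)).symm
  calc locInf (toReal γ⁻¹) * finPart γ⁻¹ * (locInf m * locFin v (ratAt237 v γ))
      = locInf (toReal γ⁻¹) * (finPart γ⁻¹ * locInf m) * locFin v (ratAt237 v γ) := by
        simp only [mul_assoc]
    _ = locInf (toReal γ⁻¹) * locInf m * (finPart γ⁻¹ * locFin v (ratAt237 v γ)) := by
        rw [hc]; simp only [mul_assoc]

theorem coe_toReal237 (γ : GL (Fin 2) ℚ) :
    ((toReal γ : GL (Fin 2) ℝ) : Matrix (Fin 2) (Fin 2) ℝ)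
      = (γ : Matrix (Fin 2) (Fin 2) ℚ).map (algebraMap ℚ ℝ) := rfl

theorem coe_gzMat237 (z : ℍ) :
    ((gzMat z : GL (Fin 2) ℝ) : Matrix (Fin 2) (Fin 2) ℝ) = !![z.im, z.re; 0, 1] := rfl

theorem coe_scalR237 (r : ℝ) (hr : 0 < r) :
    ((scalR r hr : GL (Fin 2) ℝ) : Matrix (Fin 2) (Fin 2) ℝ) = !![r, 0; 0, r] := rfl

theorem im_heckeMatrix_smul237 {p : ℕ} (hp : p ≠ 0) (j : ℕ) (z : ℍ) :
    (heckeMatrix p j • z).im = z.im / p := by
  have h := congrArg Complex.im (coe_heckeMatrix_smul hp j z)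
  rw [UpperHalfPlane.coe_im, Complex.div_natCast_im, Complex.add_im, UpperHalfPlane.coe_im,
    Complex.natCast_im, add_zero] at h
  exact h

theorem re_heckeMatrix_smul237 {p : ℕ} (hp : p ≠ 0) (j : ℕ) (z : ℍ) :
    (heckeMatrix p j • z).re = (z.re + j) / p := by
  have h := congrArg Complex.re (coe_heckeMatrix_smul hp j z)
  rw [UpperHalfPlane.coe_re, Complex.div_natCast_re, Complex.add_re, UpperHalfPlane.coe_re,
    Complex.natCast_re] at h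
  exact h

theorem im_heckeDiagMatrix_smul237 {p : ℕ} (hp : p ≠ 0) (z : ℍ) :
    (heckeDiagMatrix p • z).im = p * z.im := by
  have h := congrArg Complex.im (coe_heckeDiagMatrix_smul hp z)
  rw [UpperHalfPlane.coe_im, Complex.mul_im, UpperHalfPlane.coe_im, UpperHalfPlane.coe_re,
    Complex.natCast_im, Complex.natCast_re, zero_mul, add_zero] at h
  exact h

theorem re_heckeDiagMatrix_smul237 {p : ℕ} (hp : p ≠ 0) (z : ℍ) :
    (heckeDiagMatrix p • z).re = p * z.re := by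
  have h := congrArg Complex.re (coe_heckeDiagMatrix_smul hp z)
  rw [UpperHalfPlane.coe_re, Complex.mul_re, UpperHalfPlane.coe_im, UpperHalfPlane.coe_re,
    Complex.natCast_im, Complex.natCast_re, zero_mul, sub_zero] at h
  exact h

theorem primeR_pos237 (p : Nat.Primes) : (0 : ℝ) < (((p : ℕ) : ℕ) : ℝ) :=
  Nat.cast_pos.2 p.2.pos

/-- `γ_j⁻¹ g_z = g_{(z + N j)/p}` -/
theorem toReal_gamJ_inv_mul237 (N : ℕ) (p : Nat.Primes) (j : ℕ) (z : ℍ) :
    toReal (gamJ237 N p j)⁻¹ * gzMat z = gzMat (heckeMatrix (p : ℕ) (N * j) • z) := by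
  have hp0 : (((p : ℕ) : ℕ) : ℝ) ≠ 0 := (primeR_pos237 p).ne'
  apply Units.ext
  rw [Units.val_mul, coe_toReal237, coe_gzMat237, coe_gzMat237, gamJ237, coe_utQ_inv237,
    im_heckeMatrix_smul237 p.2.ne_zero, re_heckeMatrix_smul237 p.2.ne_zero]
  ext i j'
  fin_cases i <;> fin_cases j' <;> simp [Matrix.mul_apply, Fin.sum_univ_two] <;> field_simp

/-- `γ_∞⁻¹ g_z = g_{p z} · p⁻¹` -/
theorem toReal_gamI_inv_mul237 (p : Nat.Primes) (z : ℍ) :
    toReal (gamI237 p)⁻¹ * gzMat z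
      = gzMat (heckeDiagMatrix (p : ℕ) • z) *
          scalR ((((p : ℕ) : ℕ) : ℝ))⁻¹ (inv_pos.2 (primeR_pos237 p)) := by
  have hp0 : (((p : ℕ) : ℕ) : ℝ) ≠ 0 := (primeR_pos237 p).ne'
  apply Units.ext
  rw [Units.val_mul, Units.val_mul, coe_toReal237, coe_gzMat237, coe_gzMat237, coe_scalR237,
    gamI237, coe_utQ_inv237,
    im_heckeDiagMatrix_smul237 p.2.ne_zero, re_heckeDiagMatrix_smul237 p.2.ne_zero]
  ext i j'
  fin_cases i <;> fin_cases j' <;> simp [Matrix.mul_apply, Fin.sum_univ_two] <;> field_simp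

/-- `(p·1)⁻¹ m = m · p⁻¹` -/
theorem toReal_gamS_inv_mul237 (p : Nat.Primes) (m : GL (Fin 2) ℝ) :
    toReal (gamS237 p)⁻¹ * m
      = m * scalR ((((p : ℕ) : ℕ) : ℝ))⁻¹ (inv_pos.2 (primeR_pos237 p)) := by
  apply Units.ext
  rw [Units.val_mul, Units.val_mul, coe_toReal237, coe_scalR237, gamS237, coe_utQ_inv237]
  ext i j'
  fin_cases i <;> fin_cases j' <;> simp [Matrix.mul_apply, Fin.sum_univ_two, mul_comm]

end Transfer

/-! ## Part L: the Hecke identities of the classical function -/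

section Assembly

open UpperHalfPlane ModularForm
open scoped Manifold ModularForm

variable {N : ℕ} [NeZero N] {a b : Nat.Primes → ℂ} {φ : A0.G ℚ → ℂ}
  {ψ₁ ψ₂ : DirichletCharacter ℂ N}

omit [NeZero N] in
/-- an inverse of `p` mod `N` -/
theorem exists_inv_mod237 (p : Nat.Primes) (hp : ¬ (p : ℕ) ∣ N) :
    ∃ p' : ℤ, (N : ℤ) ∣ (((p : ℕ) : ℕ) : ℤ) * p' - 1 := by
  have hc : Nat.Coprime (p : ℕ) N := (Nat.Prime.coprime_iff_not_dvd p.2).2 hp
  obtain ⟨x, y, hxy⟩ := Nat.isCoprime_iff_coprime.2 hc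
  refine ⟨x, ⟨-y, ?_⟩⟩
  linear_combination hxy

omit [NeZero N] in
theorem char_mul_eq_one237 (ψ : DirichletCharacter ℂ N) {p : ℕ} {p' : ℤ}
    (hpp : (N : ℤ) ∣ ((p : ℕ) : ℤ) * p' - 1) :
    ψ ((p : ℕ) : ZMod N) * ψ ((p' : ℤ) : ZMod N) = 1 := by
  have h1 : ((p : ℕ) : ZMod N) * ((p' : ℤ) : ZMod N) = 1 := by
    have := (ZMod.intCast_zmod_eq_zero_iff_dvd (((p : ℕ) : ℤ) * p' - 1) N).2 hpp
    push_cast at this
    exact sub_eq_zero.1 this
  rw [← map_mul, h1, map_one]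

omit [NeZero N] in
theorem char_inv237 (ψ : DirichletCharacter ℂ N) {p : ℕ} {p' : ℤ}
    (hpp : (N : ℤ) ∣ ((p : ℕ) : ℤ) * p' - 1) :
    ψ ((p' : ℤ) : ZMod N) = (ψ ((p : ℕ) : ZMod N))⁻¹ :=
  eq_inv_of_mul_eq_one_right (char_mul_eq_one237 ψ hpp)

/-- the Hecke relation at `p`, on the adelic side, at the points `g_z` -/
theorem hecke_sum237 (h : IsLevelForm N a b φ) (hT : TorusEquiv N ψ₁ ψ₂ φ) (p : Nat.Primes)
    (hp : ¬ (p : ℕ) ∣ N) (z : ℍ) :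
    (ψ₂ (((p : ℕ) : ℕ) : ZMod N))⁻¹ * φ (locInf (gzMat (heckeDiagMatrix (p : ℕ) • z))) +
      ∑ j ∈ Finset.range (p : ℕ), (ψ₁ (((p : ℕ) : ℕ) : ZMod N))⁻¹ *
        φ (locInf (gzMat (heckeMatrix (p : ℕ) (N * j) • z)))
    = ((Real.sqrt ((((p : ℕ) : ℕ) : ℝ)) : ℝ) : ℂ) * a p * φ (locInf (gzMat z)) := by
  classical
  obtain ⟨p', hpp⟩ := exists_inv_mod237 p hp
  have hpp' : (N : ℤ) ∣ p' * (((p : ℕ) : ℕ) : ℤ) - 1 := by rwa [mul_comm]
  have h11 : (N : ℤ) ∣ (1 : ℤ) * 1 - 1 := by simp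
  have hH := (h.hecke p hp).1 (hSys237 N p) (isHeckeCosetSystem_hSys237 p hp)
    (locInf (gzMat z))
  rw [absNorm_ratPrime] at hH
  rw [← hH, hSys237, Finset.sum_image (fun x _ y _ hxy => hel_injective237 p hp hxy),
    Fintype.sum_option]
  congr 1
  · show _ = φ (locInf (gzMat z) * locFin (ratPrime p) (ratAt237 (ratPrime p) (gamI237 p)))
    rw [transfer237 h hT _ (gamI237 p) 1 p' 1 (((p : ℕ) : ℕ) : ℤ) h11 hpp'
      (diagMod_gamI237 p hp hpp) (diagMod_gamI_inv237 p hp), toReal_gamI_inv_mul237, map_mul,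
      h.arch_scalar, Int.cast_one, map_one, one_mul, char_inv237 ψ₂ hpp]
  · rw [← Fin.sum_univ_eq_sum_range (fun j => (ψ₁ (((p : ℕ) : ℕ) : ZMod N))⁻¹ *
        φ (locInf (gzMat (heckeMatrix (p : ℕ) (N * j) • z)))) (p : ℕ)]
    refine Finset.sum_congr rfl fun j _ => ?_
    show _ = φ (locInf (gzMat z) *
      locFin (ratPrime p) (ratAt237 (ratPrime p) (gamJ237 N p (j : ℕ))))
    rw [transfer237 h hT _ (gamJ237 N p (j : ℕ)) p' 1 (((p : ℕ) : ℕ) : ℤ) 1 hpp' h11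
      (diagMod_gamJ237 p hp hpp _) (diagMod_gamJ_inv237 p hp _), toReal_gamJ_inv_mul237,
      Int.cast_one, map_one, mul_one, char_inv237 ψ₁ hpp]

/-- the scalar Hecke relation: `b_p ψ₁(p) ψ₂(p) = 1` -/
theorem hecke_scalar237 (h : IsLevelForm N a b φ) (hT : TorusEquiv N ψ₁ ψ₂ φ) (p : Nat.Primes)
    (hp : ¬ (p : ℕ) ∣ N) :
    b p * (ψ₁ (((p : ℕ) : ℕ) : ZMod N) * ψ₂ (((p : ℕ) : ℕ) : ZMod N)) = 1 := by
  obtain ⟨z₀, hz₀⟩ := h.based
  obtain ⟨p', hpp⟩ := exists_inv_mod237 p hp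
  have hpp' : (N : ℤ) ∣ p' * (((p : ℕ) : ℕ) : ℤ) - 1 := by rwa [mul_comm]
  have hsu : A0.IsScalarUniformizerAt (ratPrime p)
      (locFin (ratPrime p) (ratAt237 (ratPrime p) (gamS237 p))) := by
    refine ⟨isLocalAtFin_locFin _ _,
      algebraMap ℚ ((ratPrime p).adicCompletion ℚ) (((p : ℕ) : ℕ) : ℚ), ?_, ?_⟩
    · rw [valued_algebraMap237]; exact valuation_prime_self237 p
    · rw [finComp_locFin_same, coe_ratAt237, gamS237, coe_utQ237]
      ext i j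
      fin_cases i <;> fin_cases j <;> simp
  have h1 := (h.hecke p hp).2 _ hsu (locInf (gzMat z₀))
  rw [transfer237 h hT _ (gamS237 p) p' p' (((p : ℕ) : ℕ) : ℤ) (((p : ℕ) : ℕ) : ℤ) hpp' hpp'
    (diagMod_gamS237 p hp hpp) (diagMod_gamS_inv237 p hp), toReal_gamS_inv_mul237, map_mul,
    h.arch_scalar] at h1
  have h2 : ψ₁ ((p' : ℤ) : ZMod N) * ψ₂ ((p' : ℤ) : ZMod N) = b p := mul_right_cancel₀ hz₀ h1
  rw [← h2]
  calc ψ₁ ((p' : ℤ) : ZMod N) * ψ₂ ((p' : ℤ) : ZMod N) *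
        (ψ₁ (((p : ℕ) : ℕ) : ZMod N) * ψ₂ (((p : ℕ) : ℕ) : ZMod N))
      = (ψ₁ (((p : ℕ) : ℕ) : ZMod N) * ψ₁ ((p' : ℤ) : ZMod N)) *
          (ψ₂ (((p : ℕ) : ℕ) : ZMod N) * ψ₂ ((p' : ℤ) : ZMod N)) := by ring
    _ = 1 := by rw [char_mul_eq_one237 ψ₁ hpp, char_mul_eq_one237 ψ₂ hpp, one_mul]

/-- **The Hecke half of QA3**: the classical function `z ↦ y^{-1/2} φ(g_z)` satisfies the Hecke
identities `FnHecke`. -/
theorem fnHecke237 (h : IsLevelForm N a b φ) (hT : TorusEquiv N ψ₁ ψ₂ φ) :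
    FnHecke N ψ₁ ψ₂ a b (famFn φ 1) := by
  intro p hp
  refine ⟨?_, hecke_scalar237 h hT p hp⟩
  funext z
  have hp0 : (p : ℕ) ≠ 0 := p.2.ne_zero
  have hP : (0 : ℝ) < (((p : ℕ) : ℕ) : ℝ) := primeR_pos237 p
  have hy : (0 : ℝ) < z.im := z.im_pos
  have key := hecke_sum237 h hT p hp z
  rw [Pi.add_apply, Pi.smul_apply, Pi.smul_apply, Pi.smul_apply, Finset.sum_apply,
    smul_eq_mul, smul_eq_mul, smul_eq_mul]
  simp_rw [slash_heckeMatrix_apply 1 hp0, slash_heckeDiagMatrix_apply 1 hp0]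
  unfold famFn
  simp only [mul_one, sub_self, zpow_zero, one_mul]
  rw [im_heckeDiagMatrix_smul237 hp0]
  simp_rw [im_heckeMatrix_smul237 hp0]
  rw [Real.sqrt_div hy.le, Real.sqrt_mul hP.le]
  set r : ℝ := Real.sqrt ((((p : ℕ) : ℕ) : ℝ)) with hr
  set s : ℝ := Real.sqrt z.im with hs
  have hr0 : (r : ℂ) ≠ 0 := Complex.ofReal_ne_zero.2 (Real.sqrt_pos.2 hP).ne'
  have hs0 : (s : ℂ) ≠ 0 := Complex.ofReal_ne_zero.2 (Real.sqrt_pos.2 hy).ne'
  have hrr : (r : ℂ) * (r : ℂ) = (((p : ℕ) : ℕ) : ℂ) := by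
    rw [← Complex.ofReal_mul, hr, Real.mul_self_sqrt hP.le, Complex.ofReal_natCast]
  have e1 : ∀ j : ℕ, (((p : ℕ) : ℕ) : ℂ)⁻¹ * ((((s / r : ℝ)) : ℂ)⁻¹ *
      φ (locInf (gzMat (heckeMatrix (p : ℕ) (N * j) • z))))
      = ((r : ℂ) * (s : ℂ))⁻¹ * φ (locInf (gzMat (heckeMatrix (p : ℕ) (N * j) • z))) := by
    intro j
    rw [← hrr, Complex.ofReal_div]
    field_simp
  simp_rw [e1]
  rw [Complex.ofReal_mul, ← Finset.mul_sum]
  have key' : (ψ₂ (((p : ℕ) : ℕ) : ZMod N))⁻¹ *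
      φ (locInf (gzMat (heckeDiagMatrix (p : ℕ) • z))) +
      (ψ₁ (((p : ℕ) : ℕ) : ZMod N))⁻¹ * ∑ j ∈ Finset.range (p : ℕ),
        φ (locInf (gzMat (heckeMatrix (p : ℕ) (N * j) • z)))
      = (r : ℂ) * a p * φ (locInf (gzMat z)) := by
    rw [← key, Finset.mul_sum]
  have e2 : a p * ((s : ℂ)⁻¹ * φ (locInf (gzMat z)))
      = ((r : ℂ) * (s : ℂ))⁻¹ * ((r : ℂ) * a p * φ (locInf (gzMat z))) := by
    field_simp
  rw [e2, ← key']
  ring

end Assembly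

end Fermat.Agent.LT.T7.H237

end
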