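import Fermat.Agent.LT.H670.QOut.SpecA
import Fermat.Agent.LT.H556.T0.Closure

/-!
# Row LT, tower T7, sub-tower QOUT: leaf `QA2` (torus eigen-projection) -- helper237

OFF-MAIN.  Proves `Fermat.Agent.LT.H670.QOut.QA2` (frozen in `H670/QOut/SpecA.lean`)
unconditionally: `qa2_237 : QA2`.

Given a form `φ₁` of level `U(N)` (`IsLevelForm N a b φ₁`), the eigen-projection
`φ₂(g) = Σ_t ψ₁(t₁)⁻¹ ψ₂(t₂)⁻¹ φ₁(g t̃)` over `t ∈ (ℤ/N)ˣ × (ℤ/N)ˣ` is again a form of level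
`U(N)` with the same Hecke eigenvalues at `p ∤ N`, it is `(ψ₁, ψ₂)`-equivariant under the
integral matrices congruent to a diagonal matrix mod `N` (`TorusEquiv`), and for some
`(ψ₁, ψ₂)` it keeps the base point (orthogonality of Dirichlet characters).

* Part A: `A0.idealClosure (lvl N) v` is the closed ball of radius `|N|_v` in `ℚ_v`.
* Part B: components of elements of `GL₂(𝔸_ℚ)`, extensionality, commutation lemmas.
* Part C: matrices over `ℚ_v` modulo `N`; `DiagMod` is multiplicative.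
* Part D: the lift `lel237 N n₁ n₂` (`diag(n₁, n₂)` at the places dividing `N`, `1` elsewhere).
* Part E: the predicate `Tor237 N t u` (`u ≡ t` mod `N`) and its group properties.
* Part F: the projection, its properties and the leaf.
-/

set_option autoImplicit false

open IsDedekindDomain NumberField AutomorphicForm
open scoped MatrixGroups

noncomputable section

namespace Fermat.Agent.LT.T7.H237

open Fermat.Agent.LT.H556 Fermat.Agent.LT.H670.QOut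

/-! ## Part A: the closure of `(N)` in `ℚ_v` is the closed ball of radius `|N|_v` -/

theorem natCast_eq_algebraMap237 (v : HeightOneSpectrum (𝓞 ℚ)) (n : ℕ) :
    ((n : ℕ) : v.adicCompletion ℚ)
      = algebraMap ℚ (v.adicCompletion ℚ) (algebraMap (𝓞 ℚ) ℚ ((n : ℕ) : 𝓞 ℚ)) := by
  rw [map_natCast, map_natCast]

theorem intCast_eq_algebraMap237 (v : HeightOneSpectrum (𝓞 ℚ)) (n : ℤ) :
    ((n : ℤ) : v.adicCompletion ℚ)
      = algebraMap ℚ (v.adicCompletion ℚ) (algebraMap (𝓞 ℚ) ℚ ((n : ℤ) : 𝓞 ℚ)) := by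
  rw [map_intCast, map_intCast]

theorem valued_algebraMap237 (v : HeightOneSpectrum (𝓞 ℚ)) (k : ℚ) :
    Valued.v (algebraMap ℚ (v.adicCompletion ℚ) k) = v.valuation ℚ k :=
  HeightOneSpectrum.valuedAdicCompletion_eq_valuation' v k

theorem valued_intCast237 (v : HeightOneSpectrum (𝓞 ℚ)) (n : ℤ) :
    Valued.v ((n : ℤ) : v.adicCompletion ℚ) = v.intValuation ((n : ℤ) : 𝓞 ℚ) := by
  rw [intCast_eq_algebraMap237]
  exact (HeightOneSpectrum.valuedAdicCompletion_eq_valuation' v _).trans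
    (HeightOneSpectrum.valuation_of_algebraMap v _)

theorem valued_natCast237 (v : HeightOneSpectrum (𝓞 ℚ)) (n : ℕ) :
    Valued.v ((n : ℕ) : v.adicCompletion ℚ) = v.intValuation ((n : ℕ) : 𝓞 ℚ) := by
  rw [natCast_eq_algebraMap237]
  exact (HeightOneSpectrum.valuedAdicCompletion_eq_valuation' v _).trans
    (HeightOneSpectrum.valuation_of_algebraMap v _)

theorem valued_intCast_le_one237 (v : HeightOneSpectrum (𝓞 ℚ)) (n : ℤ) :
    Valued.v ((n : ℤ) : v.adicCompletion ℚ) ≤ 1 := by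
  rw [valued_intCast237]; exact HeightOneSpectrum.intValuation_le_one v _

theorem valued_natCast_le_one237 (v : HeightOneSpectrum (𝓞 ℚ)) (n : ℕ) :
    Valued.v ((n : ℕ) : v.adicCompletion ℚ) ≤ 1 := by
  rw [valued_natCast237]; exact HeightOneSpectrum.intValuation_le_one v _

theorem valued_natCast_ne_zero237 (v : HeightOneSpectrum (𝓞 ℚ)) (N : ℕ) [NeZero N] :
    Valued.v ((N : ℕ) : v.adicCompletion ℚ) ≠ 0 := by
  rw [valued_natCast237]
  exact HeightOneSpectrum.intValuation_ne_zero v _ (Nat.cast_ne_zero.2 (NeZero.ne N))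

/-- the closed ball of radius `|N|_v` -/
def ball237 (N : ℕ) (v : HeightOneSpectrum (𝓞 ℚ)) : Set (v.adicCompletion ℚ) :=
  {x | Valued.v x ≤ Valued.v ((N : ℕ) : v.adicCompletion ℚ)}

theorem mem_ball_iff237 (N : ℕ) [NeZero N] (v : HeightOneSpectrum (𝓞 ℚ))
    (x : v.adicCompletion ℚ) :
    x ∈ ball237 N v ↔ x * ((N : ℕ) : v.adicCompletion ℚ)⁻¹ ∈ v.adicCompletionIntegers ℚ := by
  have h0 := valued_natCast_ne_zero237 v N
  rw [HeightOneSpectrum.mem_adicCompletionIntegers, map_mul, map_inv₀]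
  show Valued.v x ≤ _ ↔ _
  rw [mul_inv_le_iff₀ (zero_lt_iff.2 h0), one_mul]

theorem isClosed_ball237 (N : ℕ) [NeZero N] (v : HeightOneSpectrum (𝓞 ℚ)) :
    IsClosed (ball237 N v) := by
  have h : ball237 N v
      = (fun x : v.adicCompletion ℚ => x * ((N : ℕ) : v.adicCompletion ℚ)⁻¹) ⁻¹'
        (v.adicCompletionIntegers ℚ : Set (v.adicCompletion ℚ)) := by
    ext x; exact mem_ball_iff237 N v x
  rw [h]
  exact (Valued.isClosed_valuationSubring (v.adicCompletion ℚ)).preimage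
    (continuous_id.mul continuous_const)

theorem idealClosure_subset_ball237 (N : ℕ) [NeZero N] (v : HeightOneSpectrum (𝓞 ℚ)) :
    A0.idealClosure (lvl N) v ⊆ ball237 N v := by
  refine closure_minimal ?_ (isClosed_ball237 N v)
  rintro _ ⟨x, hx, rfl⟩
  rw [SetLike.mem_coe, lvl, Ideal.mem_span_singleton] at hx
  obtain ⟨y, rfl⟩ := hx
  show Valued.v (algebraMap ℚ (v.adicCompletion ℚ) (algebraMap (𝓞 ℚ) ℚ (((N : ℕ) : 𝓞 ℚ) * y)))
    ≤ Valued.v ((N : ℕ) : v.adicCompletion ℚ)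
  rw [map_mul, map_mul, map_mul, map_natCast, map_natCast]
  have hy : Valued.v (algebraMap ℚ (v.adicCompletion ℚ) (algebraMap (𝓞 ℚ) ℚ y)) ≤ 1 := by
    rw [valued_algebraMap237, HeightOneSpectrum.valuation_of_algebraMap]
    exact HeightOneSpectrum.intValuation_le_one v y
  calc Valued.v ((N : ℕ) : v.adicCompletion ℚ) * Valued.v _
      ≤ Valued.v ((N : ℕ) : v.adicCompletion ℚ) * 1 := by gcongr
    _ = _ := mul_one _

theorem ball_subset_idealClosure237 (N : ℕ) [NeZero N] (v : HeightOneSpectrum (𝓞 ℚ)) :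
    ball237 N v ⊆ A0.idealClosure (lvl N) v := by
  intro x hx
  have h0 : ((N : ℕ) : v.adicCompletion ℚ) ≠ 0 := by
    intro h; exact valued_natCast_ne_zero237 v N (by rw [h, map_zero])
  -- the set of `y` with `N y` in the closure
  set S : Set (v.adicCompletion ℚ) :=
    (fun y : v.adicCompletion ℚ => ((N : ℕ) : v.adicCompletion ℚ) * y) ⁻¹'
      (A0.idealClosure (lvl N) v) with hS
  have hSclosed : IsClosed S :=
    (isClosed_closure).preimage (continuous_const.mul continuous_id)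
  have hdense : Dense (Set.range (algebraMap ℚ (v.adicCompletion ℚ))) :=
    HeightOneSpectrum.denseRange_algebraMap (R := 𝓞 ℚ) (K := ℚ) v
  have hopen : IsOpen (v.adicCompletionIntegers ℚ : Set (v.adicCompletion ℚ)) :=
    Valued.isOpen_valuationSubring (v.adicCompletion ℚ)
  have hsub : (v.adicCompletionIntegers ℚ : Set (v.adicCompletion ℚ)) ∩
      Set.range (algebraMap ℚ (v.adicCompletion ℚ)) ⊆ S := by
    rintro _ ⟨hk, k, rfl⟩
    have hk' : v.valuation ℚ k ≤ 1 := by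
      rw [← valued_algebraMap237 v k]
      exact hk
    have hN : ((N : ℕ) : 𝓞 ℚ) ∈ lvl N := Ideal.subset_span rfl
    have := T0.mul_mem_idealClosure (lvl N) v hN hk'
    show ((N : ℕ) : v.adicCompletion ℚ) * algebraMap ℚ (v.adicCompletion ℚ) k
      ∈ A0.idealClosure (lvl N) v
    rw [map_mul, map_natCast, map_natCast] at this
    exact this
  have hint : (v.adicCompletionIntegers ℚ : Set (v.adicCompletion ℚ)) ⊆ S :=
    (hdense.open_subset_closure_inter hopen).trans (closure_minimal hsub hSclosed)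
  have hx' := hint ((mem_ball_iff237 N v x).1 hx)
  have : ((N : ℕ) : v.adicCompletion ℚ) * (x * ((N : ℕ) : v.adicCompletion ℚ)⁻¹) = x := by
    field_simp
  rw [hS, Set.mem_preimage, this] at hx'
  exact hx'

theorem mem_idealClosure_iff237 (N : ℕ) [NeZero N] (v : HeightOneSpectrum (𝓞 ℚ))
    (x : v.adicCompletion ℚ) :
    x ∈ A0.idealClosure (lvl N) v ↔ Valued.v x ≤ Valued.v ((N : ℕ) : v.adicCompletion ℚ) :=
  ⟨fun h => idealClosure_subset_ball237 N v h, fun h => ball_subset_idealClosure237 N v h⟩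

/-! ## Part B: components of adelic matrices -/

/-- the raw matrix of `g` at the infinite place `w` -/
def infRaw237 (w : InfinitePlace ℚ) (g : A0.G ℚ) : Matrix (Fin 2) (Fin 2) w.Completion :=
  fun i j => ((g : Matrix (Fin 2) (Fin 2) (A0.Adl ℚ)) i j).1 w

theorem trivAtInf_iff237 (w : InfinitePlace ℚ) (g : A0.G ℚ) :
    A0.TrivAtInf w g ↔ infRaw237 w g = 1 :=
  ⟨fun h => Matrix.ext h, fun h i j => congrFun (congrFun h i) j⟩

theorem infRaw_mul237 (w : InfinitePlace ℚ) (g h : A0.G ℚ) :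
    infRaw237 w (g * h) = infRaw237 w g * infRaw237 w h := by
  refine Matrix.ext fun i j => ?_
  simp only [infRaw237, Units.val_mul, Matrix.mul_apply, Fin.sum_univ_two]
  rfl

theorem finComp_mul237 (v : HeightOneSpectrum (𝓞 ℚ)) (g h : A0.G ℚ) :
    A0.finComp v (g * h) = A0.finComp v g * A0.finComp v h := by
  refine Matrix.ext fun i j => ?_
  simp only [A0.finComp, Units.val_mul, Matrix.mul_apply, Fin.sum_univ_two]
  rfl

theorem infRaw_one237 (w : InfinitePlace ℚ) : infRaw237 w (1 : A0.G ℚ) = 1 := by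
  refine Matrix.ext fun i j => ?_
  show ((1 : Matrix (Fin 2) (Fin 2) (A0.Adl ℚ)) i j).1 w = _
  by_cases hij : i = j <;> simp [Matrix.one_apply, hij] <;> rfl

theorem finComp_one237 (v : HeightOneSpectrum (𝓞 ℚ)) : A0.finComp v (1 : A0.G ℚ) = 1 := by
  refine Matrix.ext fun i j => ?_
  show ((1 : Matrix (Fin 2) (Fin 2) (A0.Adl ℚ)) i j).2 v = _
  by_cases hij : i = j <;> simp [Matrix.one_apply, hij] <;> rfl

theorem ext_G237 {g h : A0.G ℚ} (h1 : ∀ w, infRaw237 w g = infRaw237 w h)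
    (h2 : ∀ v, A0.finComp v g = A0.finComp v h) : g = h := by
  apply Units.ext
  refine Matrix.ext fun i j => ?_
  refine Prod.ext ?_ ?_
  · funext w
    exact congrFun (congrFun (h1 w) i) j
  · refine FiniteAdeleRing.ext ℚ fun v => ?_
    exact congrFun (congrFun (h2 v) i) j

theorem finComp_inv_mul237 (v : HeightOneSpectrum (𝓞 ℚ)) (g : A0.G ℚ) :
    A0.finComp v g⁻¹ * A0.finComp v g = 1 := by
  rw [← finComp_mul237, inv_mul_cancel, finComp_one237]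

theorem finComp_mul_inv237 (v : HeightOneSpectrum (𝓞 ℚ)) (g : A0.G ℚ) :
    A0.finComp v g * A0.finComp v g⁻¹ = 1 := by
  rw [← finComp_mul237, mul_inv_cancel, finComp_one237]

theorem trivAtInf_mul237 {g h : A0.G ℚ} (hg : ∀ w, A0.TrivAtInf w g)
    (hh : ∀ w, A0.TrivAtInf w h) : ∀ w, A0.TrivAtInf w (g * h) := by
  intro w
  rw [trivAtInf_iff237, infRaw_mul237, (trivAtInf_iff237 w g).1 (hg w),
    (trivAtInf_iff237 w h).1 (hh w), one_mul]

theorem trivAtInf_one237 : ∀ w, A0.TrivAtInf w (1 : A0.G ℚ) := fun w =>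
  (trivAtInf_iff237 w 1).2 (infRaw_one237 w)

theorem trivAtInf_inv237 {g : A0.G ℚ} (hg : ∀ w, A0.TrivAtInf w g) :
    ∀ w, A0.TrivAtInf w g⁻¹ := by
  intro w
  rw [trivAtInf_iff237]
  have h := infRaw_mul237 w g⁻¹ g
  rw [inv_mul_cancel, infRaw_one237, (trivAtInf_iff237 w g).1 (hg w), mul_one] at h
  exact h.symm

/-- elements trivial at the real place commute with elements at the real place -/
theorem comm_locInf237 (m : GL (Fin 2) ℝ) {u : A0.G ℚ} (hu : ∀ w, A0.TrivAtInf w u) :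
    locInf m * u = u * locInf m := by
  refine ext_G237 (fun w => ?_) (fun v => ?_)
  · rw [infRaw_mul237, infRaw_mul237, (trivAtInf_iff237 w u).1 (hu w), mul_one, one_mul]
  · rw [finComp_mul237, finComp_mul237, finComp_locInf, mul_one, one_mul]

/-- an element supported at `v` commutes with an element trivial at `v` and at the real place -/
theorem comm_of_local237 {v : HeightOneSpectrum (𝓞 ℚ)} {h u : A0.G ℚ}
    (hh : A0.IsLocalAtFin v h) (hu : ∀ w, A0.TrivAtInf w u) (huv : A0.TrivAtFin v u) :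
    h * u = u * h := by
  refine ext_G237 (fun w => ?_) (fun v' => ?_)
  · rw [infRaw_mul237, infRaw_mul237, (trivAtInf_iff237 w u).1 (hu w),
      (trivAtInf_iff237 w h).1 (hh.1 w)]
  · rw [finComp_mul237, finComp_mul237]
    by_cases hv : v' = v
    · subst hv
      have : A0.finComp v' u = 1 := huv
      rw [this, mul_one, one_mul]
    · have : A0.finComp v' h = 1 := hh.2 v' hv
      rw [this, mul_one, one_mul]

/-! ## Part C: matrices over `ℚ_v` modulo `N` -/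

/-- all entries have valuation at most `|N|_v` -/
def MatIn237 (N : ℕ) (v : HeightOneSpectrum (𝓞 ℚ))
    (A : Matrix (Fin 2) (Fin 2) (v.adicCompletion ℚ)) : Prop :=
  ∀ i j, Valued.v (A i j) ≤ Valued.v ((N : ℕ) : v.adicCompletion ℚ)

/-- all entries are integral -/
def MatInt237 (v : HeightOneSpectrum (𝓞 ℚ))
    (A : Matrix (Fin 2) (Fin 2) (v.adicCompletion ℚ)) : Prop :=
  ∀ i j, Valued.v (A i j) ≤ 1

variable {N : ℕ} {v : HeightOneSpectrum (𝓞 ℚ)}
  {A B : Matrix (Fin 2) (Fin 2) (v.adicCompletion ℚ)}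

theorem MatIn237.matInt (h : MatIn237 N v A) : MatInt237 v A := fun i j =>
  (h i j).trans (valued_natCast_le_one237 v N)

theorem MatIn237.add (hA : MatIn237 N v A) (hB : MatIn237 N v B) : MatIn237 N v (A + B) :=
  fun i j => Valuation.map_add_le _ (hA i j) (hB i j)

theorem MatIn237.sub (hA : MatIn237 N v A) (hB : MatIn237 N v B) : MatIn237 N v (A - B) :=
  fun i j => Valuation.map_sub_le _ (hA i j) (hB i j)

theorem MatInt237.add (hA : MatInt237 v A) (hB : MatInt237 v B) : MatInt237 v (A + B) :=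
  fun i j => Valuation.map_add_le _ (hA i j) (hB i j)

theorem MatIn237.mul_int (hA : MatIn237 N v A) (hB : MatInt237 v B) : MatIn237 N v (A * B) := by
  intro i j
  rw [Matrix.mul_apply, Fin.sum_univ_two]
  refine Valuation.map_add_le _ ?_ ?_
  · rw [map_mul]
    calc Valued.v (A i 0) * Valued.v (B 0 j) ≤ Valued.v ((N : ℕ) : v.adicCompletion ℚ) * 1 :=
          mul_le_mul' (hA i 0) (hB 0 j)
      _ = _ := mul_one _
  · rw [map_mul]
    calc Valued.v (A i 1) * Valued.v (B 1 j) ≤ Valued.v ((N : ℕ) : v.adicCompletion ℚ) * 1 :=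
          mul_le_mul' (hA i 1) (hB 1 j)
      _ = _ := mul_one _

theorem MatInt237.mul_in (hA : MatInt237 v A) (hB : MatIn237 N v B) : MatIn237 N v (A * B) := by
  intro i j
  rw [Matrix.mul_apply, Fin.sum_univ_two]
  refine Valuation.map_add_le _ ?_ ?_
  · rw [map_mul]
    calc Valued.v (A i 0) * Valued.v (B 0 j) ≤ 1 * Valued.v ((N : ℕ) : v.adicCompletion ℚ) :=
          mul_le_mul' (hA i 0) (hB 0 j)
      _ = _ := one_mul _
  · rw [map_mul]
    calc Valued.v (A i 1) * Valued.v (B 1 j) ≤ 1 * Valued.v ((N : ℕ) : v.adicCompletion ℚ) :=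
          mul_le_mul' (hA i 1) (hB 1 j)
      _ = _ := one_mul _

/-- the diagonal matrix of `DiagMod` -/
abbrev dg237 (v : HeightOneSpectrum (𝓞 ℚ)) (a d : ℤ) :
    Matrix (Fin 2) (Fin 2) (v.adicCompletion ℚ) :=
  Matrix.diagonal ![((a : ℤ) : v.adicCompletion ℚ), ((d : ℤ) : v.adicCompletion ℚ)]

theorem matInt_dg237 (v : HeightOneSpectrum (𝓞 ℚ)) (a d : ℤ) : MatInt237 v (dg237 v a d) := by
  intro i j
  fin_cases i <;> fin_cases j <;> simp [dg237, valued_intCast_le_one237]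

theorem dg_mul237 (v : HeightOneSpectrum (𝓞 ℚ)) (a d a' d' : ℤ) :
    dg237 v a d * dg237 v a' d' = dg237 v (a * a') (d * d') := by
  rw [dg237, dg237, dg237, Matrix.diagonal_mul_diagonal]
  congr 1
  funext i
  fin_cases i <;> simp

theorem dg_one237 (v : HeightOneSpectrum (𝓞 ℚ)) : dg237 v 1 1 = 1 := by
  rw [dg237, ← Matrix.diagonal_one]
  congr 1
  funext i
  fin_cases i <;> simp

theorem matIn_dg_sub237 (N : ℕ) (v : HeightOneSpectrum (𝓞 ℚ)) {a d a₂ d₂ : ℤ}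
    (ha : (N : ℤ) ∣ a - a₂) (hd : (N : ℤ) ∣ d - d₂) :
    MatIn237 N v (dg237 v a d - dg237 v a₂ d₂) := by
  have key : ∀ x y : ℤ, (N : ℤ) ∣ x - y →
      Valued.v (((x : ℤ) : v.adicCompletion ℚ) - ((y : ℤ) : v.adicCompletion ℚ))
        ≤ Valued.v ((N : ℕ) : v.adicCompletion ℚ) := by
    rintro x y ⟨k, hk⟩
    rw [← Int.cast_sub, hk, Int.cast_mul, map_mul, Int.cast_natCast]
    calc Valued.v ((N : ℕ) : v.adicCompletion ℚ) * Valued.v ((k : ℤ) : v.adicCompletion ℚ)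
        ≤ Valued.v ((N : ℕ) : v.adicCompletion ℚ) * 1 :=
          mul_le_mul' le_rfl (valued_intCast_le_one237 v k)
      _ = _ := mul_one _
  intro i j
  fin_cases i <;> fin_cases j <;> simp [dg237, key _ _ ha, key _ _ hd]

theorem diagMod_iff237 (N : ℕ) [NeZero N] (a d : ℤ) (u : A0.G ℚ) :
    DiagMod N a d u ↔ (∀ w, A0.TrivAtInf w u) ∧
      ∀ v, MatIn237 N v (A0.finComp v u - dg237 v a d) := by
  unfold DiagMod MatIn237
  refine and_congr Iff.rfl (forall_congr' fun v => forall_congr' fun i => forall_congr' fun j => ?_)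
  exact mem_idealClosure_iff237 N v _

theorem matInt_of_diagMod237 {N : ℕ} [NeZero N] {a d : ℤ} {u : A0.G ℚ} (h : DiagMod N a d u)
    (v : HeightOneSpectrum (𝓞 ℚ)) : MatInt237 v (A0.finComp v u) := by
  have h1 := (((diagMod_iff237 N a d u).1 h).2 v).matInt
  have h2 := h1.add (matInt_dg237 v a d)
  rwa [sub_add_cancel] at h2

theorem diagMod_mul237 {N : ℕ} [NeZero N] {a d a' d' : ℤ} {u u' : A0.G ℚ}
    (h : DiagMod N a d u) (h' : DiagMod N a' d' u') :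
    DiagMod N (a * a') (d * d') (u * u') := by
  rw [diagMod_iff237] at h h' ⊢
  refine ⟨trivAtInf_mul237 h.1 h'.1, fun v => ?_⟩
  have e : A0.finComp v (u * u') - dg237 v (a * a') (d * d')
      = (A0.finComp v u - dg237 v a d) * A0.finComp v u'
        + dg237 v a d * (A0.finComp v u' - dg237 v a' d') := by
    rw [finComp_mul237, ← dg_mul237]
    noncomm_ring
  rw [e]
  exact ((h.2 v).mul_int (matInt_of_diagMod237 ((diagMod_iff237 N a' d' u').2 h') v)).add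
    ((matInt_dg237 v a d).mul_in (h'.2 v))

theorem diagMod_congr237 {N : ℕ} [NeZero N] {a d a₂ d₂ : ℤ} {u : A0.G ℚ}
    (h : DiagMod N a d u) (ha : (N : ℤ) ∣ a - a₂) (hd : (N : ℤ) ∣ d - d₂) :
    DiagMod N a₂ d₂ u := by
  rw [diagMod_iff237] at h ⊢
  refine ⟨h.1, fun v => ?_⟩
  have e : A0.finComp v u - dg237 v a₂ d₂
      = (A0.finComp v u - dg237 v a d) + (dg237 v a d - dg237 v a₂ d₂) := by
    abel
  rw [e]
  exact (h.2 v).add (matIn_dg_sub237 N v ha hd)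

theorem inLevelGroup_iff237 (N : ℕ) [NeZero N] (u : A0.G ℚ) :
    A0.InLevelGroup (lvl N) u ↔ DiagMod N 1 1 u ∧ DiagMod N 1 1 u⁻¹ := by
  rw [diagMod_iff237, diagMod_iff237]
  unfold A0.InLevelGroup
  constructor
  · rintro ⟨h1, h2⟩
    refine ⟨⟨h1, fun v i j => ?_⟩, ⟨trivAtInf_inv237 h1, fun v i j => ?_⟩⟩
    · rw [dg_one237]; exact (mem_idealClosure_iff237 N v _).1 (h2 v i j).1
    · rw [dg_one237]; exact (mem_idealClosure_iff237 N v _).1 (h2 v i j).2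
  · rintro ⟨⟨h1, h2⟩, ⟨-, h3⟩⟩
    refine ⟨h1, fun v i j => ⟨?_, ?_⟩⟩
    · have := h2 v i j
      rw [dg_one237] at this
      exact (mem_idealClosure_iff237 N v _).2 this
    · have := h3 v i j
      rw [dg_one237] at this
      exact (mem_idealClosure_iff237 N v _).2 this

/-! ## Part D: the diagonal lift of a torus element -/

theorem valued_natCast_eq_one_iff237 (v : HeightOneSpectrum (𝓞 ℚ)) (n : ℕ) :
    Valued.v ((n : ℕ) : v.adicCompletion ℚ) = 1 ↔ ((n : ℕ) : 𝓞 ℚ) ∉ v.asIdeal := by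
  rw [valued_natCast237]
  exact HeightOneSpectrum.intValuation_eq_one_iff

theorem valued_eq_one_of_coprime237 {N n : ℕ} (hc : n.Coprime N)
    (v : HeightOneSpectrum (𝓞 ℚ)) (hv : ((N : ℕ) : 𝓞 ℚ) ∈ v.asIdeal) :
    Valued.v ((n : ℕ) : v.adicCompletion ℚ) = 1 := by
  rw [valued_natCast_eq_one_iff237]
  intro hn
  obtain ⟨x, y, hxy⟩ := Nat.isCoprime_iff_coprime.2 hc
  have h1 : ((x : ℤ) : 𝓞 ℚ) * ((n : ℕ) : 𝓞 ℚ) + ((y : ℤ) : 𝓞 ℚ) * ((N : ℕ) : 𝓞 ℚ) = 1 := by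
    have := congrArg (Int.cast : ℤ → 𝓞 ℚ) hxy
    push_cast at this
    exact this
  have h2 : (1 : 𝓞 ℚ) ∈ v.asIdeal := by
    rw [← h1]
    exact Ideal.add_mem _ (Ideal.mul_mem_left _ _ hn) (Ideal.mul_mem_left _ _ hv)
  exact v.isPrime.ne_top ((Ideal.eq_top_iff_one _).2 h2)

open Classical in
/-- the component at `v` of the lift of `n`: `n` at the places dividing `N` (where `n` is a
unit), `1` elsewhere -/
def cmp237 (N n : ℕ) (v : HeightOneSpectrum (𝓞 ℚ)) : v.adicCompletion ℚ :=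
  if ((N : ℕ) : 𝓞 ℚ) ∈ v.asIdeal ∧ Valued.v ((n : ℕ) : v.adicCompletion ℚ) = 1 then
    ((n : ℕ) : v.adicCompletion ℚ) else 1

theorem valued_cmp237 (N n : ℕ) (v : HeightOneSpectrum (𝓞 ℚ)) :
    Valued.v (cmp237 N n v) = 1 := by
  unfold cmp237
  split_ifs with h
  · exact h.2
  · exact map_one _

theorem cmp_ne_zero237 (N n : ℕ) (v : HeightOneSpectrum (𝓞 ℚ)) : cmp237 N n v ≠ 0 := by
  intro h
  have := valued_cmp237 N n v
  rw [h, map_zero] at this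
  exact zero_ne_one this

theorem cmp_of_mem237 {N n : ℕ} (hc : n.Coprime N) (v : HeightOneSpectrum (𝓞 ℚ))
    (hv : ((N : ℕ) : 𝓞 ℚ) ∈ v.asIdeal) : cmp237 N n v = ((n : ℕ) : v.adicCompletion ℚ) := by
  unfold cmp237
  rw [if_pos ⟨hv, valued_eq_one_of_coprime237 hc v hv⟩]

theorem cmp_of_notMem237 (N n : ℕ) (v : HeightOneSpectrum (𝓞 ℚ))
    (hv : ((N : ℕ) : 𝓞 ℚ) ∉ v.asIdeal) : cmp237 N n v = 1 := by
  unfold cmp237
  rw [if_neg (fun h => hv h.1)]

/-- the finite adele of the lift of `n` -/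
def ad237 (N n : ℕ) : Afin :=
  RestrictedProduct.mk (cmp237 N n) (Filter.Eventually.of_forall fun v =>
    (HeightOneSpectrum.mem_adicCompletionIntegers (𝓞 ℚ) ℚ v).2 (valued_cmp237 N n v).le)

/-- the inverse finite adele -/
def adInv237 (N n : ℕ) : Afin :=
  RestrictedProduct.mk (fun v => (cmp237 N n v)⁻¹) (Filter.Eventually.of_forall fun v =>
    (HeightOneSpectrum.mem_adicCompletionIntegers (𝓞 ℚ) ℚ v).2 (by
      rw [map_inv₀, valued_cmp237, inv_one]))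

theorem ad_apply237 (N n : ℕ) (v : HeightOneSpectrum (𝓞 ℚ)) : ad237 N n v = cmp237 N n v := rfl

theorem adInv_apply237 (N n : ℕ) (v : HeightOneSpectrum (𝓞 ℚ)) :
    adInv237 N n v = (cmp237 N n v)⁻¹ := rfl

theorem ad_mul_adInv237 (N n : ℕ) : ad237 N n * adInv237 N n = 1 := by
  refine FiniteAdeleRing.ext ℚ fun v => ?_
  rw [afin_mul_apply, afin_one_apply, ad_apply237, adInv_apply237]
  exact mul_inv_cancel₀ (cmp_ne_zero237 N n v)

theorem adInv_mul_ad237 (N n : ℕ) : adInv237 N n * ad237 N n = 1 := by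
  rw [mul_comm]; exact ad_mul_adInv237 N n

/-- the matrix of the lift -/
def lmat237 (N n₁ n₂ : ℕ) : Matrix (Fin 2) (Fin 2) (A0.Adl ℚ) :=
  pairMat 1 (Matrix.diagonal ![ad237 N n₁, ad237 N n₂])

/-- the matrix of the inverse of the lift -/
def lmatInv237 (N n₁ n₂ : ℕ) : Matrix (Fin 2) (Fin 2) (A0.Adl ℚ) :=
  pairMat 1 (Matrix.diagonal ![adInv237 N n₁, adInv237 N n₂])

theorem lmat_mul_inv237 (N n₁ n₂ : ℕ) : lmat237 N n₁ n₂ * lmatInv237 N n₁ n₂ = 1 := by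
  rw [lmat237, lmatInv237, ← pairMat_mul, one_mul, Matrix.diagonal_mul_diagonal]
  have : (fun i => ![ad237 N n₁, ad237 N n₂] i * ![adInv237 N n₁, adInv237 N n₂] i)
      = fun _ => 1 := by
    funext i
    fin_cases i <;> simp [ad_mul_adInv237]
  rw [this, Matrix.diagonal_one]
  exact pairMat_one

theorem lmat_inv_mul237 (N n₁ n₂ : ℕ) : lmatInv237 N n₁ n₂ * lmat237 N n₁ n₂ = 1 := by
  rw [lmat237, lmatInv237, ← pairMat_mul, one_mul, Matrix.diagonal_mul_diagonal]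
  have : (fun i => ![adInv237 N n₁, adInv237 N n₂] i * ![ad237 N n₁, ad237 N n₂] i)
      = fun _ => 1 := by
    funext i
    fin_cases i <;> simp [adInv_mul_ad237]
  rw [this, Matrix.diagonal_one]
  exact pairMat_one

/-- the lift of `diag(n₁, n₂)`: the element of `GL₂(𝔸_ℚ)` with component `diag(n₁, n₂)` at the
places dividing `N` and `1` at all other places -/
def lel237 (N n₁ n₂ : ℕ) : A0.G ℚ :=
  ⟨lmat237 N n₁ n₂, lmatInv237 N n₁ n₂, lmat_mul_inv237 N n₁ n₂, lmat_inv_mul237 N n₁ n₂⟩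

theorem finComp_lel237 (N n₁ n₂ : ℕ) (v : HeightOneSpectrum (𝓞 ℚ)) :
    A0.finComp v (lel237 N n₁ n₂) = Matrix.diagonal ![cmp237 N n₁ v, cmp237 N n₂ v] := by
  refine Matrix.ext fun i j => ?_
  show (Matrix.diagonal ![ad237 N n₁, ad237 N n₂] i j) v = _
  fin_cases i <;> fin_cases j <;> simp [ad_apply237, afin_zero_apply]

theorem finComp_lel_inv237 (N n₁ n₂ : ℕ) (v : HeightOneSpectrum (𝓞 ℚ)) :
    A0.finComp v (lel237 N n₁ n₂)⁻¹
      = Matrix.diagonal ![(cmp237 N n₁ v)⁻¹, (cmp237 N n₂ v)⁻¹] := by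
  refine Matrix.ext fun i j => ?_
  show (Matrix.diagonal ![adInv237 N n₁, adInv237 N n₂] i j) v = _
  fin_cases i <;> fin_cases j <;> simp [adInv_apply237, afin_zero_apply]

theorem trivAtInf_lel237 (N n₁ n₂ : ℕ) (w : InfinitePlace ℚ) :
    A0.TrivAtInf w (lel237 N n₁ n₂) := by
  intro i j
  show ((1 : Matrix (Fin 2) (Fin 2) Ainf) i j) w = _
  by_cases hij : i = j <;> simp [Matrix.one_apply, hij] <;> rfl

theorem trivAtFin_lel237 (N n₁ n₂ : ℕ) (v : HeightOneSpectrum (𝓞 ℚ))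
    (hv : ((N : ℕ) : 𝓞 ℚ) ∉ v.asIdeal) : A0.TrivAtFin v (lel237 N n₁ n₂) := by
  show A0.finComp v _ = 1
  rw [finComp_lel237, cmp_of_notMem237 N n₁ v hv, cmp_of_notMem237 N n₂ v hv,
    ← Matrix.diagonal_one]
  congr 1
  funext i
  fin_cases i <;> simp

theorem valued_N_eq_one237 (N : ℕ) (v : HeightOneSpectrum (𝓞 ℚ))
    (hv : ((N : ℕ) : 𝓞 ℚ) ∉ v.asIdeal) : Valued.v ((N : ℕ) : v.adicCompletion ℚ) = 1 :=
  (valued_natCast_eq_one_iff237 v N).2 hv

theorem cmp_sub237 {N n : ℕ} (hc : n.Coprime N) (v : HeightOneSpectrum (𝓞 ℚ)) :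
    Valued.v (cmp237 N n v - (((n : ℕ) : ℤ) : v.adicCompletion ℚ))
      ≤ Valued.v ((N : ℕ) : v.adicCompletion ℚ) := by
  by_cases hv : ((N : ℕ) : 𝓞 ℚ) ∈ v.asIdeal
  · rw [cmp_of_mem237 hc v hv, Int.cast_natCast, sub_self, map_zero]
    exact zero_le
  · rw [cmp_of_notMem237 N n v hv, valued_N_eq_one237 N v hv]
    have : (1 : v.adicCompletion ℚ) - (((n : ℕ) : ℤ) : v.adicCompletion ℚ)
        = (((1 - (n : ℤ) : ℤ)) : v.adicCompletion ℚ) := by push_cast; rfl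
    rw [this]
    exact valued_intCast_le_one237 v _

theorem cmp_inv_sub237 {N n : ℕ} (hc : n.Coprime N) {n' : ℤ}
    (h : (N : ℤ) ∣ (n : ℤ) * n' - 1) (v : HeightOneSpectrum (𝓞 ℚ)) :
    Valued.v ((cmp237 N n v)⁻¹ - ((n' : ℤ) : v.adicCompletion ℚ))
      ≤ Valued.v ((N : ℕ) : v.adicCompletion ℚ) := by
  by_cases hv : ((N : ℕ) : 𝓞 ℚ) ∈ v.asIdeal
  · have h1 := valued_eq_one_of_coprime237 hc v hv
    have hne : ((n : ℕ) : v.adicCompletion ℚ) ≠ 0 := by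
      intro h0; rw [h0, map_zero] at h1; exact zero_ne_one h1
    rw [cmp_of_mem237 hc v hv]
    have e : ((n : ℕ) : v.adicCompletion ℚ)⁻¹ - ((n' : ℤ) : v.adicCompletion ℚ)
        = -(((n : ℕ) : v.adicCompletion ℚ)⁻¹ *
            ((((n : ℤ) * n' - 1 : ℤ)) : v.adicCompletion ℚ)) := by
      push_cast
      field_simp
      ring
    rw [e, Valuation.map_neg, map_mul, map_inv₀, h1, inv_one, one_mul]
    obtain ⟨k, hk⟩ := h
    rw [hk, Int.cast_mul, map_mul, Int.cast_natCast]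
    calc Valued.v ((N : ℕ) : v.adicCompletion ℚ) * Valued.v ((k : ℤ) : v.adicCompletion ℚ)
        ≤ Valued.v ((N : ℕ) : v.adicCompletion ℚ) * 1 :=
          mul_le_mul' le_rfl (valued_intCast_le_one237 v k)
      _ = _ := mul_one _
  · rw [cmp_of_notMem237 N n v hv, valued_N_eq_one237 N v hv, inv_one]
    have : (1 : v.adicCompletion ℚ) - ((n' : ℤ) : v.adicCompletion ℚ)
        = (((1 - n' : ℤ)) : v.adicCompletion ℚ) := by push_cast; rfl
    rw [this]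
    exact valued_intCast_le_one237 v _

theorem diagMod_lel237 {N n₁ n₂ : ℕ} [NeZero N] (h₁ : n₁.Coprime N) (h₂ : n₂.Coprime N) :
    DiagMod N ((n₁ : ℕ) : ℤ) ((n₂ : ℕ) : ℤ) (lel237 N n₁ n₂) := by
  rw [diagMod_iff237]
  refine ⟨trivAtInf_lel237 N n₁ n₂, fun v i j => ?_⟩
  rw [finComp_lel237]
  fin_cases i <;> fin_cases j
  · simpa [dg237] using cmp_sub237 h₁ v
  · simp [dg237]
  · simp [dg237]
  · simpa [dg237] using cmp_sub237 h₂ v

theorem diagMod_lel_inv237 {N n₁ n₂ : ℕ} [NeZero N] (h₁ : n₁.Coprime N) (h₂ : n₂.Coprime N)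
    {n₁' n₂' : ℤ} (e₁ : (N : ℤ) ∣ (n₁ : ℤ) * n₁' - 1) (e₂ : (N : ℤ) ∣ (n₂ : ℤ) * n₂' - 1) :
    DiagMod N n₁' n₂' (lel237 N n₁ n₂)⁻¹ := by
  rw [diagMod_iff237]
  refine ⟨trivAtInf_inv237 (trivAtInf_lel237 N n₁ n₂), fun v i j => ?_⟩
  rw [finComp_lel_inv237]
  fin_cases i <;> fin_cases j
  · simpa [dg237] using cmp_inv_sub237 h₁ e₁ v
  · simp [dg237]
  · simp [dg237]
  · simpa [dg237] using cmp_inv_sub237 h₂ e₂ v

/-! ## Part E: the torus mod `N` -/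

/-- `u` is integral, trivial at the real place, and congruent mod `N` to the diagonal element
`t` of the torus `(ℤ/N)ˣ × (ℤ/N)ˣ` -/
def Tor237 (N : ℕ) (t : (ZMod N)ˣ × (ZMod N)ˣ) (u : A0.G ℚ) : Prop :=
  ∃ a d a' d' : ℤ, ((a : ℤ) : ZMod N) = ((t.1 : (ZMod N)ˣ) : ZMod N) ∧
    ((d : ℤ) : ZMod N) = ((t.2 : (ZMod N)ˣ) : ZMod N) ∧
    ((a' : ℤ) : ZMod N) = ((t.1⁻¹ : (ZMod N)ˣ) : ZMod N) ∧
    ((d' : ℤ) : ZMod N) = ((t.2⁻¹ : (ZMod N)ˣ) : ZMod N) ∧
    DiagMod N a d u ∧ DiagMod N a' d' u⁻¹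

theorem tor_trivAtInf237 {N : ℕ} {t : (ZMod N)ˣ × (ZMod N)ˣ} {u : A0.G ℚ}
    (h : Tor237 N t u) : ∀ w, A0.TrivAtInf w u := by
  obtain ⟨a, d, a', d', -, -, -, -, h1, -⟩ := h
  exact h1.1

theorem tor_mul237 {N : ℕ} [NeZero N] {t t' : (ZMod N)ˣ × (ZMod N)ˣ} {u u' : A0.G ℚ}
    (h : Tor237 N t u) (h' : Tor237 N t' u') : Tor237 N (t * t') (u * u') := by
  obtain ⟨a, d, a', d', ha, hd, ha', hd', h1, h2⟩ := h
  obtain ⟨b, e, b', e', hb, he, hb', he', h3, h4⟩ := h'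
  refine ⟨a * b, d * e, b' * a', e' * d', ?_, ?_, ?_, ?_, diagMod_mul237 h1 h3, ?_⟩
  · rw [Int.cast_mul, ha, hb, Prod.fst_mul, Units.val_mul]
  · rw [Int.cast_mul, hd, he, Prod.snd_mul, Units.val_mul]
  · rw [Int.cast_mul, ha', hb', Prod.fst_mul, mul_inv_rev, Units.val_mul]
  · rw [Int.cast_mul, hd', he', Prod.snd_mul, mul_inv_rev, Units.val_mul]
  · rw [mul_inv_rev]
    exact diagMod_mul237 h4 h2

theorem tor_inv237 {N : ℕ} {t : (ZMod N)ˣ × (ZMod N)ˣ} {u : A0.G ℚ}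
    (h : Tor237 N t u) : Tor237 N t⁻¹ u⁻¹ := by
  obtain ⟨a, d, a', d', ha, hd, ha', hd', h1, h2⟩ := h
  refine ⟨a', d', a, d, ha', hd', ?_, ?_, h2, ?_⟩
  · rw [ha, Prod.fst_inv, inv_inv]
  · rw [hd, Prod.snd_inv, inv_inv]
  · rw [inv_inv]; exact h1

theorem inLevelGroup_of_tor_one237 {N : ℕ} [NeZero N] {u : A0.G ℚ}
    (h : Tor237 N 1 u) : A0.InLevelGroup (lvl N) u := by
  obtain ⟨a, d, a', d', ha, hd, ha', hd', h1, h2⟩ := h
  have key : ∀ x : ℤ, ((x : ℤ) : ZMod N) = 1 → (N : ℤ) ∣ x - 1 := by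
    intro x hx
    rw [← ZMod.intCast_zmod_eq_zero_iff_dvd]
    push_cast
    rw [hx, sub_self]
  rw [inLevelGroup_iff237]
  refine ⟨diagMod_congr237 h1 (key a ?_) (key d ?_), diagMod_congr237 h2 (key a' ?_) (key d' ?_)⟩
  · rw [ha]; rfl
  · rw [hd]; rfl
  · rw [ha']; simp
  · rw [hd']; simp

theorem tor_one_of_inLevelGroup237 {N : ℕ} [NeZero N] {u : A0.G ℚ}
    (h : A0.InLevelGroup (lvl N) u) : Tor237 N 1 u := by
  rw [inLevelGroup_iff237] at h
  exact ⟨1, 1, 1, 1, by simp, by simp, by simp, by simp, h.1, h.2⟩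

theorem tor_of_diagMod237 {N : ℕ} [NeZero N] {a d a' d' : ℤ} {u : A0.G ℚ}
    (ha : (N : ℤ) ∣ a * a' - 1) (hd : (N : ℤ) ∣ d * d' - 1)
    (h1 : DiagMod N a d u) (h2 : DiagMod N a' d' u⁻¹) :
    ∃ t : (ZMod N)ˣ × (ZMod N)ˣ, Tor237 N t u ∧
      ((t.1 : (ZMod N)ˣ) : ZMod N) = ((a : ℤ) : ZMod N) ∧
      ((t.2 : (ZMod N)ˣ) : ZMod N) = ((d : ℤ) : ZMod N) := by
  have key : ∀ x y : ℤ, (N : ℤ) ∣ x * y - 1 → ((x : ℤ) : ZMod N) * ((y : ℤ) : ZMod N) = 1 := by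
    intro x y hxy
    have := (ZMod.intCast_zmod_eq_zero_iff_dvd (x * y - 1) N).2 hxy
    push_cast at this
    exact sub_eq_zero.1 this
  refine ⟨(⟨((a : ℤ) : ZMod N), ((a' : ℤ) : ZMod N), key a a' ha, by
      rw [mul_comm]; exact key a a' ha⟩,
    ⟨((d : ℤ) : ZMod N), ((d' : ℤ) : ZMod N), key d d' hd, by
      rw [mul_comm]; exact key d d' hd⟩), ⟨a, d, a', d', rfl, rfl, rfl, rfl, h1, h2⟩, rfl, rfl⟩

/-- the lift of the torus element `t` -/
def lift237 (N : ℕ) (t : (ZMod N)ˣ × (ZMod N)ˣ) : A0.G ℚ :=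
  lel237 N ((t.1 : (ZMod N)ˣ) : ZMod N).val ((t.2 : (ZMod N)ˣ) : ZMod N).val

theorem tor_lift237 (N : ℕ) [NeZero N] (t : (ZMod N)ˣ × (ZMod N)ˣ) :
    Tor237 N t (lift237 N t) := by
  have key : ∀ s : (ZMod N)ˣ,
      (N : ℤ) ∣ (((s : ZMod N).val : ℕ) : ℤ) * ((((s⁻¹ : (ZMod N)ˣ) : ZMod N).val : ℕ) : ℤ) - 1 := by
    intro s
    rw [← ZMod.intCast_zmod_eq_zero_iff_dvd]
    push_cast
    rw [ZMod.natCast_zmod_val, ZMod.natCast_zmod_val, Units.mul_inv, sub_self]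
  refine ⟨(((t.1 : ZMod N).val : ℕ) : ℤ), (((t.2 : ZMod N).val : ℕ) : ℤ),
    ((((t.1⁻¹ : (ZMod N)ˣ) : ZMod N).val : ℕ) : ℤ),
    ((((t.2⁻¹ : (ZMod N)ˣ) : ZMod N).val : ℕ) : ℤ), ?_, ?_, ?_, ?_,
    diagMod_lel237 (ZMod.val_coe_unit_coprime t.1) (ZMod.val_coe_unit_coprime t.2),
    diagMod_lel_inv237 (ZMod.val_coe_unit_coprime t.1) (ZMod.val_coe_unit_coprime t.2)
      (key t.1) (key t.2)⟩
  · rw [Int.cast_natCast, ZMod.natCast_zmod_val]
  · rw [Int.cast_natCast, ZMod.natCast_zmod_val]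
  · rw [Int.cast_natCast, ZMod.natCast_zmod_val]
  · rw [Int.cast_natCast, ZMod.natCast_zmod_val]

theorem trivAtFin_lift237 (N : ℕ) (t : (ZMod N)ˣ × (ZMod N)ˣ) (p : Nat.Primes)
    (hp : ¬ (p : ℕ) ∣ N) : A0.TrivAtFin (ratPrime p) (lift237 N t) :=
  trivAtFin_lel237 N _ _ _ (fun h => hp ((natCast_mem_ratPrime_iff p N).1 h))

theorem trivAtInf_lift237 (N : ℕ) (t : (ZMod N)ˣ × (ZMod N)ˣ) :
    ∀ w, A0.TrivAtInf w (lift237 N t) := trivAtInf_lel237 N _ _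

/-! ## Part F: the eigen-projection -/

section Projection

open scoped Manifold
open UpperHalfPlane

variable (N : ℕ) [NeZero N]

/-- the coefficient `ψ₁(t₁)⁻¹ ψ₂(t₂)⁻¹` -/
def coef237 (ψ₁ ψ₂ : DirichletCharacter ℂ N) (t : (ZMod N)ˣ × (ZMod N)ˣ) : ℂ :=
  ψ₁ ((t.1⁻¹ : (ZMod N)ˣ) : ZMod N) * ψ₂ ((t.2⁻¹ : (ZMod N)ˣ) : ZMod N)

/-- the eigen-projection of `φ` under the diagonal torus mod `N` -/
def proj237 (ψ₁ ψ₂ : DirichletCharacter ℂ N) (φ : A0.G ℚ → ℂ) (g : A0.G ℚ) : ℂ :=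
  ∑ t : (ZMod N)ˣ × (ZMod N)ˣ, coef237 N ψ₁ ψ₂ t * φ (g * lift237 N t)

variable {N}
variable {a b : Nat.Primes → ℂ} {φ : A0.G ℚ → ℂ}

/-- absorption: `φ(g u t̃) = φ(g (st)~)` for `u ≡ s` mod `N` -/
theorem absorb237 (h : IsLevelForm N a b φ) {s : (ZMod N)ˣ × (ZMod N)ˣ} {u : A0.G ℚ}
    (hu : Tor237 N s u) (t : (ZMod N)ˣ × (ZMod N)ˣ) (g : A0.G ℚ) :
    φ (g * u * lift237 N t) = φ (g * lift237 N (s * t)) := by
  have hw : A0.InLevelGroup (lvl N) ((lift237 N (s * t))⁻¹ * (u * lift237 N t)) := by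
    apply inLevelGroup_of_tor_one237
    have := tor_mul237 (tor_inv237 (tor_lift237 N (s * t))) (tor_mul237 hu (tor_lift237 N t))
    rwa [inv_mul_cancel] at this
  have := h.level_inv _ hw (g * lift237 N (s * t))
  rw [← this]
  congr 1
  group

omit [NeZero N] in
theorem coef_mul237 (ψ₁ ψ₂ : DirichletCharacter ℂ N) (s t : (ZMod N)ˣ × (ZMod N)ˣ) :
    coef237 N ψ₁ ψ₂ t
      = ψ₁ ((s.1 : (ZMod N)ˣ) : ZMod N) * ψ₂ ((s.2 : (ZMod N)ˣ) : ZMod N)
        * coef237 N ψ₁ ψ₂ (s * t) := by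
  unfold coef237
  have e1 : ψ₁ ((s.1 : (ZMod N)ˣ) : ZMod N) * ψ₁ (((s * t).1⁻¹ : (ZMod N)ˣ) : ZMod N)
      = ψ₁ ((t.1⁻¹ : (ZMod N)ˣ) : ZMod N) := by
    rw [← map_mul, ← Units.val_mul, Prod.fst_mul, mul_inv_rev, mul_comm t.1⁻¹,
      mul_inv_cancel_left]
  have e2 : ψ₂ ((s.2 : (ZMod N)ˣ) : ZMod N) * ψ₂ (((s * t).2⁻¹ : (ZMod N)ˣ) : ZMod N)
      = ψ₂ ((t.2⁻¹ : (ZMod N)ˣ) : ZMod N) := by
    rw [← map_mul, ← Units.val_mul, Prod.snd_mul, mul_inv_rev, mul_comm t.2⁻¹,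
      mul_inv_cancel_left]
  rw [← e1, ← e2]
  ring

theorem torusEquiv_proj237 (h : IsLevelForm N a b φ) (ψ₁ ψ₂ : DirichletCharacter ℂ N) :
    TorusEquiv N ψ₁ ψ₂ (proj237 N ψ₁ ψ₂ φ) := by
  intro a₀ d₀ a' d' u ha hd h1 h2 g
  obtain ⟨s, hs, hs1, hs2⟩ := tor_of_diagMod237 ha hd h1 h2
  unfold proj237
  rw [Finset.mul_sum, ← hs1, ← hs2,
    ← Equiv.sum_comp (Equiv.mulLeft s) (fun t =>
      ψ₁ ((s.1 : (ZMod N)ˣ) : ZMod N) * ψ₂ ((s.2 : (ZMod N)ˣ) : ZMod N) *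
        (coef237 N ψ₁ ψ₂ t * φ (g * lift237 N t)))]
  refine Finset.sum_congr rfl fun t _ => ?_
  rw [absorb237 h hs t g, coef_mul237 ψ₁ ψ₂ s t, Equiv.coe_mulLeft]
  ring

theorem sum_proj237 (h : IsLevelForm N a b φ) (g : A0.G ℚ) :
    ∑ ψ₁ : DirichletCharacter ℂ N, ∑ ψ₂ : DirichletCharacter ℂ N, proj237 N ψ₁ ψ₂ φ g
      = (N.totient : ℂ) * (N.totient : ℂ) * φ g := by
  unfold proj237 coef237
  have step : ∀ ψ₁ : DirichletCharacter ℂ N,
      ∑ ψ₂ : DirichletCharacter ℂ N, ∑ t : (ZMod N)ˣ × (ZMod N)ˣ,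
        ψ₁ ((t.1⁻¹ : (ZMod N)ˣ) : ZMod N) * ψ₂ ((t.2⁻¹ : (ZMod N)ˣ) : ZMod N) *
          φ (g * lift237 N t)
      = ∑ t : (ZMod N)ˣ × (ZMod N)ˣ, ∑ ψ₂ : DirichletCharacter ℂ N,
        ψ₁ ((t.1⁻¹ : (ZMod N)ˣ) : ZMod N) * ψ₂ ((t.2⁻¹ : (ZMod N)ˣ) : ZMod N) *
          φ (g * lift237 N t) := fun ψ₁ => Finset.sum_comm
  simp_rw [step]
  rw [Finset.sum_comm]
  have step2 : ∀ t : (ZMod N)ˣ × (ZMod N)ˣ,
      ∑ ψ₁ : DirichletCharacter ℂ N, ∑ ψ₂ : DirichletCharacter ℂ N,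
        ψ₁ ((t.1⁻¹ : (ZMod N)ˣ) : ZMod N) * ψ₂ ((t.2⁻¹ : (ZMod N)ˣ) : ZMod N) *
          φ (g * lift237 N t)
      = (if ((t.1⁻¹ : (ZMod N)ˣ) : ZMod N) = 1 then (N.totient : ℂ) else 0) *
        (if ((t.2⁻¹ : (ZMod N)ˣ) : ZMod N) = 1 then (N.totient : ℂ) else 0) *
          φ (g * lift237 N t) := by
    intro t
    rw [← DirichletCharacter.sum_characters_eq ℂ, ← DirichletCharacter.sum_characters_eq ℂ,
      Finset.sum_mul_sum, Finset.sum_mul]
    refine Finset.sum_congr rfl fun ψ₁ _ => ?_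
    rw [Finset.sum_mul]
  simp_rw [step2]
  rw [Finset.sum_eq_single (1 : (ZMod N)ˣ × (ZMod N)ˣ)]
  · have hl : φ (g * lift237 N 1) = φ g :=
      h.level_inv _ (inLevelGroup_of_tor_one237 (tor_lift237 N 1)) g
    simp [hl]
  · intro t _ ht
    have : ¬ (((t.1⁻¹ : (ZMod N)ˣ) : ZMod N) = 1 ∧ ((t.2⁻¹ : (ZMod N)ˣ) : ZMod N) = 1) := by
      rintro ⟨h1, h2⟩
      apply ht
      have h1' : t.1⁻¹ = 1 := Units.ext h1
      have h2' : t.2⁻¹ = 1 := Units.ext h2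
      exact Prod.ext (inv_eq_one.1 h1') (inv_eq_one.1 h2')
    by_cases h1 : ((t.1⁻¹ : (ZMod N)ˣ) : ZMod N) = 1
    · have h2 : ¬ ((t.2⁻¹ : (ZMod N)ˣ) : ZMod N) = 1 := fun h2 => this ⟨h1, h2⟩
      rw [if_neg h2, mul_zero, zero_mul]
    · rw [if_neg h1, zero_mul, zero_mul]
  · intro h1
    exact absurd (Finset.mem_univ _) h1

theorem famFn_proj237 (ψ₁ ψ₂ : DirichletCharacter ℂ N) (φ : A0.G ℚ → ℂ) (g : A0.G ℚ) :
    famFn (proj237 N ψ₁ ψ₂ φ) g
      = ∑ t : (ZMod N)ˣ × (ZMod N)ˣ, coef237 N ψ₁ ψ₂ t • famFn φ (g * lift237 N t) := by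
  funext z
  rw [Finset.sum_apply]
  unfold famFn proj237
  rw [Finset.mul_sum]
  refine Finset.sum_congr rfl fun t _ => ?_
  rw [Pi.smul_apply, smul_eq_mul, mul_assoc]
  ring

theorem isLevelForm_proj237 (h : IsLevelForm N a b φ) (ψ₁ ψ₂ : DirichletCharacter ℂ N)
    (hb : ∃ z : ℍ, proj237 N ψ₁ ψ₂ φ (locInf (gzMat z)) ≠ 0) :
    IsLevelForm N a b (proj237 N ψ₁ ψ₂ φ) where
  bdd := by
    obtain ⟨C, hC⟩ := h.bdd
    refine ⟨∑ t : (ZMod N)ˣ × (ZMod N)ˣ, ‖coef237 N ψ₁ ψ₂ t‖ * C, fun g => ?_⟩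
    unfold proj237
    refine (norm_sum_le _ _).trans (Finset.sum_le_sum fun t _ => ?_)
    rw [norm_mul]
    exact mul_le_mul_of_nonneg_left (hC _) (norm_nonneg _)
  left_inv := by
    intro γ g
    unfold proj237
    refine Finset.sum_congr rfl fun t _ => ?_
    rw [mul_assoc, h.left_inv]
  level_inv := by
    intro u hu g
    unfold proj237
    refine Finset.sum_congr rfl fun t _ => ?_
    rw [absorb237 h (tor_one_of_inLevelGroup237 hu) t g, one_mul]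
  arch_scalar := by
    intro r hr g
    unfold proj237
    refine Finset.sum_congr rfl fun t _ => ?_
    rw [mul_assoc, comm_locInf237 _ (trivAtInf_lift237 N t), ← mul_assoc, h.arch_scalar]
  weight_one := by
    intro θ g
    unfold proj237
    rw [Finset.mul_sum]
    refine Finset.sum_congr rfl fun t _ => ?_
    rw [mul_assoc, comm_locInf237 _ (trivAtInf_lift237 N t), ← mul_assoc, h.weight_one]
    ring
  holo := by
    intro g hg
    rw [famFn_proj237]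
    refine MDifferentiable.sum fun t _ => ?_
    exact MDifferentiable.const_smul _ (h.holo _ (trivAtInf_mul237 hg (trivAtInf_lift237 N t)))
  hecke := by
    intro p hp
    have hcomm : ∀ (x : A0.G ℚ), A0.IsLocalAtFin (ratPrime p) x →
        ∀ (g : A0.G ℚ) (t : (ZMod N)ˣ × (ZMod N)ˣ),
          g * x * lift237 N t = g * lift237 N t * x := by
      intro x hx g t
      rw [mul_assoc, comm_of_local237 hx (trivAtInf_lift237 N t) (trivAtFin_lift237 N t p hp),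
        ← mul_assoc]
    refine ⟨fun H hH g => ?_, fun z hz g => ?_⟩
    · unfold proj237
      rw [Finset.sum_comm, Finset.mul_sum]
      refine Finset.sum_congr rfl fun t _ => ?_
      rw [← Finset.mul_sum]
      have e : ∑ x ∈ H, φ (g * x * lift237 N t) = ∑ x ∈ H, φ (g * lift237 N t * x) :=
        Finset.sum_congr rfl fun x hx => by rw [hcomm x (hH.2.1 x hx).1 g t]
      rw [e, (h.hecke p hp).1 H hH]
      ring
    · unfold proj237
      rw [Finset.mul_sum]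
      refine Finset.sum_congr rfl fun t _ => ?_
      rw [hcomm z hz.1 g t, (h.hecke p hp).2 z hz]
      ring
  based := hb

end Projection

/-- **Leaf QA2 (torus eigen-projection).** -/
theorem qa2_237 : QA2 := by
  intro N hN a b φ₁ h
  obtain ⟨z, hz⟩ := h.based
  have hex : ∃ ψ₁ ψ₂ : DirichletCharacter ℂ N,
      proj237 N ψ₁ ψ₂ φ₁ (locInf (gzMat z)) ≠ 0 := by
    by_contra hcon0
    have hcon : ∀ ψ₁ ψ₂ : DirichletCharacter ℂ N,
        proj237 N ψ₁ ψ₂ φ₁ (locInf (gzMat z)) = 0 := fun ψ₁ ψ₂ => by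
      by_contra h0
      exact hcon0 ⟨ψ₁, ψ₂, h0⟩
    have hsum := sum_proj237 h (locInf (gzMat z))
    simp_rw [hcon, Finset.sum_const_zero] at hsum
    have hpos : (N.totient : ℂ) ≠ 0 :=
      Nat.cast_ne_zero.2 (Nat.totient_pos.2 (Nat.pos_of_ne_zero (NeZero.ne N))).ne'
    exact hz ((mul_eq_zero.1 hsum.symm).resolve_left (mul_ne_zero hpos hpos))
  obtain ⟨ψ₁, ψ₂, hψ⟩ := hex
  exact ⟨ψ₁, ψ₂, proj237 N ψ₁ ψ₂ φ₁, isLevelForm_proj237 h ψ₁ ψ₂ ⟨z, hψ⟩,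
    torusEquiv_proj237 h ψ₁ ψ₂⟩

end Fermat.Agent.LT.T7.H237

end
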